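/-
GATE-M / S41-E-LATFORM (helper35): from the lattice `Λ_M = parabolicHoms ℤ Γ₀(M) ℤ` to eigenforms.

Route-neutral last brick of level raising: if `X ⊂ Λ_M` is ANY set of lattice classes and `𝔫` is a
proper ideal of the free Hecke ring `HeckeAlg = ℤ[X_l : l prime]` containing the annihilator of `X`,
then there is a normalised eigenform `g` of level `M` and weight two whose eigencharacter
`θ : HeckeAlg →+* ℤ̄` kills `Ann(X)` and satisfies `𝔫 ≤ θ⁻¹(𝔪')` for a maximal ideal `𝔪'` of `ℤ̄`.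

No stability, saturation or tensor-product hypothesis: the Deligne–Serre step is run directly on
`S₂ × S₂` through the period isomorphism (S21) and the Hecke equivariance of J2.
-/
import Fermat.Agent.GJ.J2.Lattice
import Fermat.Agent.GJ.J4.EigChar
import Fermat.Agent.S49_helper65.AbstractDS
import Fermat.Agent.S49_helper65.Eigenform
import Fermat.Agent.S23.FinDim
import Fermat.Prelude.Def_FreyPackage_LevelRaising

set_option autoImplicit false

open scoped MatrixGroups
open CongruenceSubgroup ModularCurve ModularCurve.Period CuspForm ModularFormClass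

namespace Fermat.Agent.GM.End

open Fermat.Agent.GJ.J2.Lat Fermat.Agent.S49_helper65

/-! ### Part 1: a common eigenvector inside a stable subspace -/

section Abstract

variable {V : Type*} [AddCommGroup V] [Module ℂ V] [FiniteDimensional ℂ V]
variable {T : Type*} [CommRing T] (φ : T →+* Module.End ℂ V)

/-- A common eigenvector inside a stable subspace `W₁` whose annihilator lies in the prime `𝔪`;
its eigencharacter has kernel inside `𝔪`. -/
theorem exists_eigenvector_mem_of_annOf_le (𝔪 : Ideal T) [h𝔪 : 𝔪.IsPrime] (W₁ : Submodule ℂ V)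
    (hst₁ : StableUnder φ W₁) (hann₁ : annOf φ W₁ ≤ 𝔪) :
    ∃ (g : V) (θ : T →+* ℂ), g ∈ W₁ ∧ g ≠ 0 ∧ (∀ t, φ t g = θ t • g) ∧ RingHom.ker θ ≤ 𝔪 := by
  classical
  let S : Set (Submodule ℂ V) := {W | StableUnder φ W ∧ annOf φ W ≤ 𝔪 ∧ W ≤ W₁}
  have hS : S.Nonempty := ⟨W₁, hst₁, hann₁, le_rfl⟩
  obtain ⟨W₀, ⟨hst, hann, hle⟩, hmin⟩ :=
    (wellFounded_lt (α := Submodule ℂ V)).has_min S hS
  have hmin' : ∀ W : Submodule ℂ V, StableUnder φ W → annOf φ W ≤ 𝔪 → ¬ W < W₀ :=
    fun W h1 h2 hlt => hmin W ⟨h1, h2, hlt.le.trans hle⟩ hlt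
  have hsc := scalar_on_minimal φ 𝔪 W₀ hst hann hmin'
  have hne : W₀ ≠ ⊥ := by
    rintro rfl
    apply h𝔪.ne_top
    rw [Ideal.eq_top_iff_one]
    apply hann
    intro w hw
    rw [Submodule.mem_bot] at hw
    rw [hw, map_zero]
  obtain ⟨g, hgW, hg0⟩ := Submodule.exists_mem_ne_zero_of_ne_bot hne
  choose θ₀ hθ₀ using hsc
  have huniq : ∀ c c' : ℂ, c • g = c' • g → c = c' := by
    intro c c' h
    have : (c - c') • g = 0 := by rw [sub_smul, h, sub_self]
    rcases smul_eq_zero.mp this with h' | h'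
    · exact sub_eq_zero.mp h'
    · exact absurd h' hg0
  let θ : T →+* ℂ :=
    { toFun := θ₀
      map_one' := by
        apply huniq
        rw [← hθ₀ 1 g hgW, map_one, Module.End.one_apply, one_smul]
      map_mul' := by
        intro s t
        apply huniq
        rw [← hθ₀ (s * t) g hgW, map_mul, Module.End.mul_apply, hθ₀ t g hgW, map_smul,
          hθ₀ s g hgW, smul_smul, mul_comm]
      map_zero' := by
        apply huniq
        rw [← hθ₀ 0 g hgW, map_zero, LinearMap.zero_apply, zero_smul]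
      map_add' := by
        intro s t
        apply huniq
        rw [← hθ₀ (s + t) g hgW, map_add, LinearMap.add_apply, hθ₀ s g hgW, hθ₀ t g hgW,
          add_smul] }
  refine ⟨g, θ, hle hgW, hg0, fun t => hθ₀ t g hgW, ?_⟩
  intro t ht
  apply hann
  intro w hw
  have : θ₀ t = 0 := ht
  rw [hθ₀ t w hw, this, zero_smul]

end Abstract

/-! ### Part 2: the free Hecke ring on `S₂ × S₂` and on the lattice -/

section Forms

variable (M : ℕ) [NeZero M]

/-- The free Hecke ring acting on `S₂(Γ₀(M))`. -/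
noncomputable def actF : HeckeAlg →+* Module.End ℂ (CuspForm (Gamma0 M) 2) :=
  ((heckeAlgebra M 2 ∅).val : heckeAlgebra M 2 ∅ →+* Module.End ℂ (CuspForm (Gamma0 M) 2)).comp
    (heckeEvalForms M 2)

theorem actF_apply (P : HeckeAlg) :
    actF M P = ((heckeEvalForms M 2 P : heckeAlgebra M 2 ∅) :
      Module.End ℂ (CuspForm (Gamma0 M) 2)) := rfl

/-- The free Hecke ring acting diagonally on `S₂ × S₂`. -/
noncomputable def actPair :
    HeckeAlg →+* Module.End ℂ (CuspForm (Gamma0 M) 2 × CuspForm (Gamma0 M) 2) :=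
  (LinearMap.prodMapRingHom ℂ (CuspForm (Gamma0 M) 2) (CuspForm (Gamma0 M) 2)).comp
    ((actF M).prod (actF M))

theorem actPair_apply (P : HeckeAlg) (fg : CuspForm (Gamma0 M) 2 × CuspForm (Gamma0 M) 2) :
    actPair M P fg = (actF M P fg.1, actF M P fg.2) := rfl

/-- The free Hecke ring acting on the lattice. -/
noncomputable def actL (P : HeckeAlg) : Module.End ℤ (Lam M) :=
  ((evLat M P : latAlg M) : Module.End ℤ (Lam M))

theorem actL_mul (P Q : HeckeAlg) (x : Lam M) : actL M (P * Q) x = actL M P (actL M Q x) := by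
  unfold actL
  rw [map_mul, Subalgebra.coe_mul, Module.End.mul_apply]

theorem actL_one (x : Lam M) : actL M 1 x = x := by
  unfold actL
  rw [map_one, Subalgebra.coe_one, Module.End.one_apply]

theorem actL_add (P Q : HeckeAlg) (x : Lam M) : actL M (P + Q) x = actL M P x + actL M Q x := by
  unfold actL
  rw [map_add, Subalgebra.coe_add, LinearMap.add_apply]

theorem actL_zero (x : Lam M) : actL M 0 x = 0 := by
  unfold actL
  rw [map_zero, Subalgebra.coe_zero, LinearMap.zero_apply]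

theorem actL_comm (P Q : HeckeAlg) (x : Lam M) :
    actL M P (actL M Q x) = actL M Q (actL M P x) := by
  rw [← actL_mul, ← actL_mul, mul_comm]

theorem actL_heckeGen (l : Nat.Primes) (x : Lam M) : actL M (heckeGen l) x = latT M l x := by
  unfold actL
  rw [evLat_heckeGen, coe_latGen]

theorem actL_C (a : ℤ) (x : Lam M) : actL M (MvPolynomial.C a) x = a • x := by
  unfold actL
  rw [evLat, MvPolynomial.aeval_C, Subalgebra.coe_algebraMap, Module.algebraMap_end_apply]

/-- **Equivariance** of the period map for the two actions (J2). -/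
theorem periodHomPair_actPair (P : HeckeAlg) (fg : CuspForm (Gamma0 M) 2 × CuspForm (Gamma0 M) 2)
    (x : Lam M) (h : periodHomPair M fg = latC M x) :
    periodHomPair M (actPair M P fg) = latC M (actL M P x) :=
  periodHomPair_heckeEvalForms M P fg.1 fg.2 x h

/-- The annihilator in the free Hecke ring of a set of lattice classes. -/
def annSet (X : Set (Lam M)) : Ideal HeckeAlg where
  carrier := {P | ∀ x ∈ X, actL M P x = 0}
  add_mem' := by
    intro P Q hP hQ x hx
    have hP : ∀ x ∈ X, actL M P x = 0 := hP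
    have hQ : ∀ x ∈ X, actL M Q x = 0 := hQ
    rw [actL_add, hP x hx, hQ x hx, add_zero]
  zero_mem' := fun x _ => actL_zero M x
  smul_mem' := by
    intro c P hP x hx
    have hP : ∀ x ∈ X, actL M P x = 0 := hP
    rw [smul_eq_mul, actL_mul, hP x hx, map_zero]

theorem mem_annSet {X : Set (Lam M)} {P : HeckeAlg} :
    P ∈ annSet M X ↔ ∀ x ∈ X, actL M P x = 0 := Iff.rfl

/-- Generators of the subspace of `S₂ × S₂` attached to the Hecke span of `X`. -/
def genSet (X : Set (Lam M)) : Set (CuspForm (Gamma0 M) 2 × CuspForm (Gamma0 M) 2) :=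
  {fg | ∃ x ∈ X, ∃ Q : HeckeAlg, periodHomPair M fg = latC M (actL M Q x)}

/-- The subspace of `S₂ × S₂` attached to the Hecke span of `X`. -/
def spanOf (X : Set (Lam M)) : Submodule ℂ (CuspForm (Gamma0 M) 2 × CuspForm (Gamma0 M) 2) :=
  Submodule.span ℂ (genSet M X)

theorem stableUnder_spanOf (X : Set (Lam M)) : StableUnder (actPair M) (spanOf M X) := by
  intro P w hw
  have hle : spanOf M X ≤ (spanOf M X).comap (actPair M P) := by
    refine Submodule.span_le.2 ?_
    rintro fg ⟨x, hx, Q, hQ⟩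
    refine Submodule.subset_span ⟨x, hx, P * Q, ?_⟩
    rw [periodHomPair_actPair M P fg _ hQ, actL_mul]
  exact hle hw

theorem annOf_spanOf_le (X : Set (Lam M)) : annOf (actPair M) (spanOf M X) ≤ annSet M X := by
  intro P hP x hx
  obtain ⟨fg, hfg⟩ := exists_periodHomPair_eq_latC M x
  have hmem : fg ∈ spanOf M X :=
    Submodule.subset_span ⟨x, hx, 1, by rw [hfg, actL_one]⟩
  have h0 : actPair M P fg = 0 := hP fg hmem
  have h1 := periodHomPair_actPair M P fg x hfg
  rw [h0, map_zero] at h1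
  apply latC_injective M
  rw [← h1, map_zero]

theorem annSet_le_annOf_spanOf (X : Set (Lam M)) :
    annSet M X ≤ annOf (actPair M) (spanOf M X) := by
  intro P hP w hw
  have hle : spanOf M X ≤ LinearMap.ker (actPair M P) := by
    refine Submodule.span_le.2 ?_
    rintro fg ⟨x, hx, Q, hQ⟩
    show fg ∈ LinearMap.ker (actPair M P)
    rw [LinearMap.mem_ker]
    apply (Fermat.Agent.S21.result M).1
    rw [periodHomPair_actPair M P fg _ hQ, actL_comm, hP x hx, map_zero, map_zero, map_zero]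
  exact LinearMap.mem_ker.1 (hle hw)

/-! ### Part 3: the lifting theorem, ideal form -/

open Fermat.Agent.GJ.EigChar in
/-- **Lattice-to-eigenform lifting, ideal form.** For ANY set `X` of classes in
`Λ_M = parabolicHoms ℤ Γ₀(M) ℤ` and any proper ideal `𝔫` of the free Hecke ring containing the
annihilator of `X`, there is a normalised eigenform `g` of level `M`, with eigencharacter `θ`
(values in `ℤ̄`, `θ(X_l) = a_l(g)` for EVERY prime `l`), killing `Ann(X)`, and a maximal ideal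
`𝔪'` of `ℤ̄` with `𝔫 ≤ θ⁻¹(𝔪')`. -/
theorem exists_eigenform_of_annSet_le (X : Set (Lam M)) (𝔫 : Ideal HeckeAlg) (h𝔫 : 𝔫 ≠ ⊤)
    (hann : annSet M X ≤ 𝔫) :
    ∃ (g : CuspForm (Gamma0 M) 2) (θ : HeckeAlg →+* integralClosure ℤ ℂ)
      (𝔪' : Ideal (integralClosure ℤ ℂ)),
      g.IsNormalizedEigenform ∧ 𝔪'.IsMaximal ∧ 𝔫 ≤ 𝔪'.comap θ ∧
      (∀ l : Nat.Primes, ((θ (heckeGen l) : integralClosure ℤ ℂ) : ℂ) = qCoeff g l) ∧
      annSet M X ≤ RingHom.ker θ := by
  classical
  obtain ⟨𝔫', h𝔫'max, hle⟩ := Ideal.exists_le_maximal 𝔫 h𝔫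
  have hprime : 𝔫'.IsPrime := h𝔫'max.isPrime
  have hfd : FiniteDimensional ℂ (CuspForm (Gamma0 M) 2) :=
    Fermat.Agent.S23.finiteDimensional_cuspForm M 2
  obtain ⟨v, θ₀, hvW, hv0, hv, hker⟩ :=
    exists_eigenvector_mem_of_annOf_le (actPair M) 𝔫' (spanOf M X) (stableUnder_spanOf M X)
      ((annOf_spanOf_le M X).trans (hann.trans hle))
  -- a nonzero component, eigen for the whole free Hecke ring
  obtain ⟨f, hf0, hf⟩ : ∃ f : CuspForm (Gamma0 M) 2, f ≠ 0 ∧ ∀ P, actF M P f = θ₀ P • f := by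
    by_cases h1 : v.1 = 0
    · refine ⟨v.2, ?_, fun P => ?_⟩
      · intro h2
        exact hv0 (Prod.ext h1 h2)
      · have := congrArg Prod.snd (hv P)
        rw [actPair_apply] at this
        exact this
    · refine ⟨v.1, h1, fun P => ?_⟩
      have := congrArg Prod.fst (hv P)
      rw [actPair_apply] at this
      exact this
  set θn : ℕ → ℂ := fun ℓ => if h : ℓ.Prime then θ₀ (heckeGen ⟨ℓ, h⟩) else 0 with hθn
  have hT : ∀ (ℓ : ℕ) (hℓ : ℓ.Prime) (hℓN : ¬ ℓ ∣ M),
      CuspForm.heckeTLin 2 hℓ hℓN f = θn ℓ • f := by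
    intro ℓ hℓ hℓN
    have h1 := hf (heckeGen ⟨ℓ, hℓ⟩)
    rw [actF_apply, heckeEvalForms_heckeGen_of_not_dvd (N := M) (k := 2) (ℓ := ⟨ℓ, hℓ⟩) hℓN,
      heckeAlgebra.coe_T] at h1
    rw [hθn]
    simp only [dif_pos hℓ]
    exact h1
  have hU : ∀ (q : ℕ) (_ : q.Prime) (hqN : q ∣ M),
      CuspForm.heckeULin 2 hqN f = θn q • f := by
    intro q hq hqN
    have h1 := hf (heckeGen ⟨q, hq⟩)
    rw [actF_apply, heckeEvalForms_heckeGen_of_dvd (N := M) (k := 2) (q := ⟨q, hq⟩) hqN,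
      heckeAlgebra.coe_U] at h1
    rw [hθn]
    simp only [dif_pos hq]
    exact h1
  obtain ⟨g, hg, hgθ⟩ := exists_normalizedEigenform_of_eigenvector f hf0 θn hT hU
  -- the eigencharacter of `g` on the free Hecke ring
  set θ : HeckeAlg →+* integralClosure ℤ ℂ :=
    (lamInt (S := (∅ : Set ℕ)) hg).comp (heckeEvalForms M 2) with hθ
  have hθgen : ∀ l : Nat.Primes, ((θ (heckeGen l) : integralClosure ℤ ℂ) : ℂ) = qCoeff g l := by
    intro l
    rw [hθ, RingHom.comp_apply, coe_lamInt]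
    by_cases hl : (l : ℕ) ∣ M
    · rw [heckeEvalForms_heckeGen_of_dvd hl, lam_U]
    · rw [heckeEvalForms_heckeGen_of_not_dvd hl, lam_T]
  have hθθ₀ : ∀ P : HeckeAlg, ((θ P : integralClosure ℤ ℂ) : ℂ) = θ₀ P := by
    have heq : ((algebraMap (integralClosure ℤ ℂ) ℂ).comp θ) = θ₀ := by
      refine MvPolynomial.ringHom_ext (fun r => ?_) (fun l => ?_)
      · exact RingHom.congr_fun (RingHom.ext_int
          (((algebraMap (integralClosure ℤ ℂ) ℂ).comp θ).comp MvPolynomial.C)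
          (θ₀.comp MvPolynomial.C)) r
      · have h1 := hθgen l
        rw [hgθ l l.2, hθn] at h1
        simp only [dif_pos l.2] at h1
        exact h1
    intro P
    exact congrArg (fun φ : HeckeAlg →+* ℂ => φ P) heq
  have hkerθ : RingHom.ker θ ≤ 𝔫' := by
    intro P hP
    apply hker
    rw [RingHom.mem_ker] at hP ⊢
    rw [← hθθ₀, hP]
    rfl
  -- the maximal ideal of `ℤ̄`
  let _ : Algebra HeckeAlg (integralClosure ℤ ℂ) := θ.toAlgebra
  have : IsScalarTower ℤ HeckeAlg (integralClosure ℤ ℂ) :=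
    IsScalarTower.of_algebraMap_eq' (RingHom.ext_int _ _)
  have : Algebra.IsIntegral HeckeAlg (integralClosure ℤ ℂ) :=
    ⟨fun x => IsIntegral.tower_top (integralClosure.isIntegral x)⟩
  have hker' : RingHom.ker (algebraMap HeckeAlg (integralClosure ℤ ℂ)) ≤ 𝔫' := hkerθ
  obtain ⟨𝔪', h𝔪', hcomap⟩ := Ideal.exists_ideal_over_maximal_of_isIntegral 𝔫' hker'
  refine ⟨g, θ, 𝔪', hg, h𝔪', ?_, hθgen, ?_⟩
  · intro P hP
    have : P ∈ 𝔪'.comap (algebraMap HeckeAlg (integralClosure ℤ ℂ)) := by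
      rw [hcomap]; exact hle hP
    exact this
  · intro P hP
    rw [RingHom.mem_ker]
    apply Subtype.ext
    rw [hθθ₀]
    have h1 := annSet_le_annOf_spanOf M X hP v hvW
    rw [hv P] at h1
    rcases smul_eq_zero.mp h1 with h | h
    · rw [h]; rfl
    · exact absurd h hv0

/-! ### Part 4: the class form and the level-raising shape -/

theorem actL_sub (P Q : HeckeAlg) (x : Lam M) : actL M (P - Q) x = actL M P x - actL M Q x := by
  unfold actL
  rw [map_sub, Subalgebra.coe_sub, LinearMap.sub_apply]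

/-- The ideal of Hecke polynomials sending `k` into `p Λ`. -/
def divIdeal (p : ℕ) (k : Lam M) : Ideal HeckeAlg where
  carrier := {P | ∃ z : Lam M, actL M P k = (p : ℤ) • z}
  add_mem' := by
    rintro P Q ⟨z, hz⟩ ⟨z', hz'⟩
    exact ⟨z + z', by rw [actL_add, hz, hz', smul_add]⟩
  zero_mem' := ⟨0, by rw [actL_zero, smul_zero]⟩
  smul_mem' := by
    rintro c P ⟨z, hz⟩
    exact ⟨actL M c z, by rw [smul_eq_mul, actL_mul, hz, map_smul]⟩

theorem mem_divIdeal {p : ℕ} {k : Lam M} {P : HeckeAlg} :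
    P ∈ divIdeal M p k ↔ ∃ z : Lam M, actL M P k = (p : ℤ) • z := Iff.rfl

/-- **Lattice-to-eigenform lifting, class form.** A lattice class `k`, not divisible by `p`, which
is an eigenvector mod `p Λ` of the `T_l`, `l ∈ S`, with eigenvalues `a l`, and which is killed by
the Hecke polynomials in `R`, gives a normalised eigenform `g` whose eigencharacter `θ` satisfies
`θ(X_l) ≡ a l` mod `𝔪'` (`l ∈ S`), `p ∈ 𝔪'`, and `θ = 0` on `R`. -/
theorem exists_eigenform_of_class (p : ℕ) (k : Lam M)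
    (hk0 : ¬ ∃ z : Lam M, k = (p : ℤ) • z)
    (a : Nat.Primes → ℤ) (S : Set Nat.Primes)
    (hk : ∀ l ∈ S, ∃ z : Lam M, latT M l k - a l • k = (p : ℤ) • z)
    (R : Set HeckeAlg) (hR : ∀ P ∈ R, actL M P k = 0) :
    ∃ (g : CuspForm (Gamma0 M) 2) (θ : HeckeAlg →+* integralClosure ℤ ℂ)
      (𝔪' : Ideal (integralClosure ℤ ℂ)),
      g.IsNormalizedEigenform ∧ 𝔪'.IsMaximal ∧ (p : integralClosure ℤ ℂ) ∈ 𝔪' ∧
      (∀ l : Nat.Primes, ((θ (heckeGen l) : integralClosure ℤ ℂ) : ℂ) = qCoeff g l) ∧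
      (∀ l ∈ S, θ (heckeGen l) - ((a l : ℤ) : integralClosure ℤ ℂ) ∈ 𝔪') ∧
      (∀ P ∈ R, θ P = 0) := by
  have hne : divIdeal M p k ≠ ⊤ := by
    intro htop
    have h1 : (1 : HeckeAlg) ∈ divIdeal M p k := by rw [htop]; exact Submodule.mem_top
    obtain ⟨z, hz⟩ := h1
    rw [actL_one] at hz
    exact hk0 ⟨z, hz⟩
  have hann : annSet M {k} ≤ divIdeal M p k := by
    intro P hP
    exact ⟨0, by rw [hP k rfl, smul_zero]⟩
  obtain ⟨g, θ, 𝔪', hg, h𝔪', hle, hθgen, hkill⟩ :=
    exists_eigenform_of_annSet_le M {k} (divIdeal M p k) hne hann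
  have hC : ∀ n : ℤ, θ (MvPolynomial.C n) = (n : integralClosure ℤ ℂ) := fun n =>
    RingHom.congr_fun (RingHom.ext_int (θ.comp MvPolynomial.C)
      (Int.castRingHom (integralClosure ℤ ℂ))) n
  refine ⟨g, θ, 𝔪', hg, h𝔪', ?_, hθgen, ?_, ?_⟩
  · have h1 : (MvPolynomial.C (p : ℤ) : HeckeAlg) ∈ divIdeal M p k :=
      ⟨k, actL_C M _ k⟩
    have h2 := hle h1
    rw [Ideal.mem_comap, hC] at h2
    exact_mod_cast h2
  · intro l hl
    obtain ⟨z, hz⟩ := hk l hl
    have h1 : heckeGen l - MvPolynomial.C (a l) ∈ divIdeal M p k :=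
      ⟨z, by rw [actL_sub, actL_heckeGen, actL_C, hz]⟩
    have h2 := hle h1
    rw [Ideal.mem_comap, map_sub, hC] at h2
    exact h2
  · intro P hP
    have h1 : P ∈ annSet M {k} := by
      intro x hx
      rw [Set.mem_singleton_iff.1 hx]
      exact hR P hP
    exact hkill h1

/-- **The level-raising shape.** A class `k ∈ Λ_M`, not divisible by `p`, with `U_q² k = k`
(`q ∣ M` is not even needed) and `T_ℓ k ≡ a ℓ • k` mod `p Λ` for the primes `ℓ` selected by `good`,
gives a normalised eigenform `g` of level `M`, new at `q` (`a_q(g)² = 1`), congruent to `a` modulo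
a maximal ideal over `p`: the conclusion of `S41` verbatim. -/
theorem exists_newAt_congruent_eigenform {p q : ℕ} (hq : q.Prime) (k : Lam M)
    (hk0 : ¬ ∃ z : Lam M, k = (p : ℤ) • z)
    (hUq : latT M ⟨q, hq⟩ (latT M ⟨q, hq⟩ k) = k)
    (a : ℕ → ℤ) (good : ℕ → Prop)
    (hk : ∀ (ℓ : ℕ) (hℓ : ℓ.Prime), good ℓ → ¬ ℓ ∣ M → ℓ ≠ p →
      ∃ z : Lam M, latT M ⟨ℓ, hℓ⟩ k - a ℓ • k = (p : ℤ) • z) :
    ∃ (g : CuspForm (Gamma0 M) 2) (𝔪' : Ideal (integralClosure ℤ ℂ)),
      g.IsNormalizedEigenform ∧ 𝔪'.IsMaximal ∧ (p : integralClosure ℤ ℂ) ∈ 𝔪' ∧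
      (∀ ℓ : ℕ, ℓ.Prime → good ℓ → ¬ ℓ ∣ M → ℓ ≠ p →
        ∃ c : integralClosure ℤ ℂ, (c : ℂ) = qCoeff g ℓ ∧
          c - ((a ℓ : ℤ) : integralClosure ℤ ℂ) ∈ 𝔪') ∧
      g.IsNewAt q := by
  set lq : Nat.Primes := ⟨q, hq⟩ with hlq
  obtain ⟨g, θ, 𝔪', hg, h𝔪', hp𝔪', hθgen, hcong, hkill⟩ :=
    exists_eigenform_of_class M p k hk0 (fun l => a l)
      {l : Nat.Primes | good l ∧ ¬ (l : ℕ) ∣ M ∧ (l : ℕ) ≠ p}
      (fun l hl => hk l l.2 hl.1 hl.2.1 hl.2.2)
      {heckeGen lq * heckeGen lq - 1}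
      (by
        intro P hP
        rw [Set.mem_singleton_iff.1 hP, actL_sub, actL_mul, actL_heckeGen, actL_heckeGen,
          actL_one, hUq, sub_self])
  refine ⟨g, 𝔪', hg, h𝔪', hp𝔪', ?_, ?_⟩
  · intro ℓ hℓ hgood hℓM hℓp
    exact ⟨θ (heckeGen ⟨ℓ, hℓ⟩), hθgen ⟨ℓ, hℓ⟩, hcong ⟨ℓ, hℓ⟩ ⟨hgood, hℓM, hℓp⟩⟩
  · have h1 := hkill _ (Set.mem_singleton _)
    rw [map_sub, map_mul, map_one, sub_eq_zero] at h1
    have h2 := congrArg (fun c : integralClosure ℤ ℂ => (c : ℂ)) h1
    simp only [MulMemClass.coe_mul, OneMemClass.coe_one] at h2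
    rw [hθgen lq] at h2
    show qCoeff g q ^ 2 = 1
    rw [pow_two]
    exact h2

end Forms

end Fermat.Agent.GM.End
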