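/-
GATE-M / S41-E-LYINGOVER (helper35): lying-over from a small Hecke ring `T` to the free Hecke ring.

The algebra of level raising (GM/Alg) controls `Ann_T(ker β)` for a ring `T` of GOOD Hecke
operators only (`ψ : T →+* HeckeAlg`).  The lattice-to-eigenform brick (`LatToForm`) wants a proper
ideal of the FULL free Hecke ring containing `Ann_HeckeAlg(X)`.  Since `HeckeAlg / Ann(X)` is
integral over `ℤ` (it acts faithfully on a subgroup of the finitely generated lattice), every prime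
`𝔭 ⊇ ψ⁻¹(Ann X)` of `T` has a prime of `HeckeAlg` over it containing `Ann(X)`.  No stability of `X`
under the bad operators `U_l` is needed.
-/
import Fermat.Agent.GM.End.LatToForm

set_option autoImplicit false

open scoped MatrixGroups
open CongruenceSubgroup ModularCurve ModularCurve.Period CuspForm ModularFormClass

namespace Fermat.Agent.GM.End

open Fermat.Agent.GJ.J2.Lat

section LyingOver

variable (M : ℕ) [NeZero M]

/-- The free Hecke ring acting on the lattice, as an algebra homomorphism. -/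
noncomputable def actLHom : HeckeAlg →ₐ[ℤ] Module.End ℤ (Lam M) :=
  (latAlg M).val.comp (evLat M)

theorem actLHom_apply (P : HeckeAlg) : actLHom M P = actL M P := rfl

/-- Every class of `HeckeAlg / Ann(X)` is integral over `ℤ`. -/
theorem isIntegral_quotient_annSet (X : Set (Lam M)) (P : HeckeAlg) :
    IsIntegral ℤ (Ideal.Quotient.mk (annSet M X) P) := by
  have hfree : Module.Free ℤ (Lam M) := Fermat.Agent.GJ.J2.ZStruct.free_parabolicHoms_int M
  have hfin : Module.Finite ℤ (Lam M) := Fermat.Agent.GJ.J2.ZStruct.finite_parabolicHoms_int M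
  have hfinEnd : Module.Finite ℤ (Module.End ℤ (Lam M)) :=
    Module.Finite.linearMap ℤ ℤ (Lam M) (Lam M)
  obtain ⟨m, hm, h0⟩ : IsIntegral ℤ (actLHom M P) := IsIntegral.of_finite ℤ _
  refine ⟨m, hm, ?_⟩
  have h1 : Polynomial.aeval (actLHom M P) m = 0 := h0
  rw [Polynomial.aeval_algHom_apply] at h1
  have h2 : Polynomial.aeval P m ∈ annSet M X := by
    intro x _
    rw [← actLHom_apply, h1, LinearMap.zero_apply]
  have h3 : Polynomial.aeval (Ideal.Quotient.mkₐ ℤ (annSet M X) P) m = 0 := by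
    rw [Polynomial.aeval_algHom_apply, Ideal.Quotient.mkₐ_eq_mk, Ideal.Quotient.eq_zero_iff_mem]
    exact h2
  exact h3

/-- **Lying over**: a prime of `T` containing `ψ⁻¹(Ann X)` is the pull-back of a prime of the free
Hecke ring containing `Ann X`. -/
theorem exists_prime_ge_annSet_comap_eq {T : Type*} [CommRing T] (ψ : T →+* HeckeAlg)
    (X : Set (Lam M)) (𝔭 : Ideal T) [h𝔭 : 𝔭.IsPrime] (hann : (annSet M X).comap ψ ≤ 𝔭) :
    ∃ 𝔫 : Ideal HeckeAlg, 𝔫.IsPrime ∧ annSet M X ≤ 𝔫 ∧ 𝔫.comap ψ = 𝔭 := by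
  let φ : T →+* (HeckeAlg ⧸ annSet M X) := (Ideal.Quotient.mk (annSet M X)).comp ψ
  let _ : Algebra T (HeckeAlg ⧸ annSet M X) := φ.toAlgebra
  have : IsScalarTower ℤ T (HeckeAlg ⧸ annSet M X) :=
    IsScalarTower.of_algebraMap_eq' (RingHom.ext_int _ _)
  have : Algebra.IsIntegral T (HeckeAlg ⧸ annSet M X) := by
    refine ⟨fun y => ?_⟩
    obtain ⟨P, rfl⟩ := Ideal.Quotient.mk_surjective y
    exact IsIntegral.tower_top (isIntegral_quotient_annSet M X P)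
  have hker : RingHom.ker (algebraMap T (HeckeAlg ⧸ annSet M X)) ≤ 𝔭 := by
    intro s hs
    apply hann
    rw [Ideal.mem_comap]
    have : Ideal.Quotient.mk (annSet M X) (ψ s) = 0 := hs
    exact Ideal.Quotient.eq_zero_iff_mem.1 this
  obtain ⟨Q, -, hQprime, hQ⟩ :=
    Ideal.exists_ideal_over_prime_of_isIntegral 𝔭 (⊥ : Ideal (HeckeAlg ⧸ annSet M X))
      (by rw [← RingHom.ker_eq_comap_bot]; exact hker)
  refine ⟨Q.comap (Ideal.Quotient.mk (annSet M X)), Ideal.comap_isPrime _ _, ?_, ?_⟩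
  · intro P hP
    rw [Ideal.mem_comap, Ideal.Quotient.eq_zero_iff_mem.2 hP]
    exact Q.zero_mem
  · rw [Ideal.comap_comap]
    exact hQ

/-- **Lattice-to-eigenform lifting from a small Hecke ring.** `ψ : T →+* HeckeAlg` any ring of
Hecke operators, `X ⊂ Λ_M` any set of classes, `𝔭` a prime of `T` containing `Ann_T(X)`: there is a
normalised eigenform `g` of level `M` whose eigencharacter `θ` (on the FULL free Hecke ring, with
`θ(X_l) = a_l(g)` for every prime `l`) kills `Ann_HeckeAlg(X)` and satisfies `𝔭 ≤ (θ ∘ ψ)⁻¹(𝔪')`. -/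
theorem exists_eigenform_of_comap_annSet_le {T : Type*} [CommRing T] (ψ : T →+* HeckeAlg)
    (X : Set (Lam M)) (𝔭 : Ideal T) [h𝔭 : 𝔭.IsPrime] (hann : (annSet M X).comap ψ ≤ 𝔭) :
    ∃ (g : CuspForm (Gamma0 M) 2) (θ : HeckeAlg →+* integralClosure ℤ ℂ)
      (𝔪' : Ideal (integralClosure ℤ ℂ)),
      g.IsNormalizedEigenform ∧ 𝔪'.IsMaximal ∧ 𝔭 ≤ 𝔪'.comap (θ.comp ψ) ∧
      (∀ l : Nat.Primes, ((θ (heckeGen l) : integralClosure ℤ ℂ) : ℂ) = qCoeff g l) ∧
      annSet M X ≤ RingHom.ker θ := by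
  obtain ⟨𝔫, h𝔫prime, h𝔫ann, h𝔫comap⟩ := exists_prime_ge_annSet_comap_eq M ψ X 𝔭 hann
  obtain ⟨g, θ, 𝔪', hg, h𝔪', hle, hθ, hkill⟩ :=
    exists_eigenform_of_annSet_le M X 𝔫 h𝔫prime.ne_top h𝔫ann
  refine ⟨g, θ, 𝔪', hg, h𝔪', ?_, hθ, hkill⟩
  intro s hs
  rw [← h𝔫comap] at hs
  exact hle hs

/-- **The endgame of level raising in one call.** `ψ : T →+* HeckeAlg` a ring of (good) Hecke
operators, `X ⊂ Λ_M` a set of classes with `U_q² = 1` on `X` (e.g. `X = ker β`), `𝔭` a prime of `T`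
containing `Ann_T(X)` (the conclusion of `GM/Alg`), containing (a preimage of) `p` and of
`X_ℓ − a ℓ` for the selected primes: then the conclusion of `S41` holds verbatim at level `M`. -/
theorem exists_newAt_congruent_eigenform_of_ann {T : Type*} [CommRing T] (ψ : T →+* HeckeAlg)
    (X : Set (Lam M)) (𝔭 : Ideal T) [h𝔭 : 𝔭.IsPrime] (hann : (annSet M X).comap ψ ≤ 𝔭)
    {p q : ℕ} (hq : q.Prime)
    (hUq : ∀ x ∈ X, latT M ⟨q, hq⟩ (latT M ⟨q, hq⟩ x) = x)
    (hp : ∃ s ∈ 𝔭, ψ s = MvPolynomial.C (p : ℤ))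
    (a : ℕ → ℤ) (good : ℕ → Prop)
    (hgood : ∀ (ℓ : ℕ) (hℓ : ℓ.Prime), good ℓ → ¬ ℓ ∣ M → ℓ ≠ p →
      ∃ s ∈ 𝔭, ψ s = heckeGen ⟨ℓ, hℓ⟩ - MvPolynomial.C (a ℓ)) :
    ∃ (g : CuspForm (Gamma0 M) 2) (𝔪' : Ideal (integralClosure ℤ ℂ)),
      g.IsNormalizedEigenform ∧ 𝔪'.IsMaximal ∧ (p : integralClosure ℤ ℂ) ∈ 𝔪' ∧
      (∀ ℓ : ℕ, ℓ.Prime → good ℓ → ¬ ℓ ∣ M → ℓ ≠ p →
        ∃ c : integralClosure ℤ ℂ, (c : ℂ) = qCoeff g ℓ ∧
          c - ((a ℓ : ℤ) : integralClosure ℤ ℂ) ∈ 𝔪') ∧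
      g.IsNewAt q := by
  obtain ⟨g, θ, 𝔪', hg, h𝔪', hle, hθ, hkill⟩ :=
    exists_eigenform_of_comap_annSet_le M ψ X 𝔭 hann
  have hC : ∀ n : ℤ, θ (MvPolynomial.C n) = (n : integralClosure ℤ ℂ) := fun n =>
    RingHom.congr_fun (RingHom.ext_int (θ.comp MvPolynomial.C)
      (Int.castRingHom (integralClosure ℤ ℂ))) n
  refine ⟨g, 𝔪', hg, h𝔪', ?_, ?_, ?_⟩
  · obtain ⟨s, hs, hψs⟩ := hp
    have h1 := hle hs
    rw [Ideal.mem_comap, RingHom.comp_apply, hψs, hC] at h1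
    exact_mod_cast h1
  · intro ℓ hℓ hg' hℓM hℓp
    obtain ⟨s, hs, hψs⟩ := hgood ℓ hℓ hg' hℓM hℓp
    have h1 := hle hs
    rw [Ideal.mem_comap, RingHom.comp_apply, hψs, map_sub, hC] at h1
    exact ⟨θ (heckeGen ⟨ℓ, hℓ⟩), hθ ⟨ℓ, hℓ⟩, h1⟩
  · set lq : Nat.Primes := ⟨q, hq⟩ with hlq
    have hmem : heckeGen lq * heckeGen lq - 1 ∈ annSet M X := by
      intro x hx
      rw [actL_sub, actL_mul, actL_heckeGen, actL_heckeGen, actL_one, hUq x hx, sub_self]
    have h1 : θ (heckeGen lq * heckeGen lq - 1) = 0 := hkill hmem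
    rw [map_sub, map_mul, map_one, sub_eq_zero] at h1
    have h2 := congrArg (fun c : integralClosure ℤ ℂ => (c : ℂ)) h1
    simp only [MulMemClass.coe_mul, OneMemClass.coe_one] at h2
    rw [hθ lq] at h2
    show qCoeff g q ^ 2 = 1
    rw [pow_two]
    exact h2

end LyingOver

end Fermat.Agent.GM.End
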