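/-
GATE-M / S41-E-FORMLAT (helper35): from an eigenform to the lattice `Λ_N = parabolicHoms ℤ Γ₀(N) ℤ`.

The SUPPLY side of level raising: a normalised eigenform `f` of level `N` and a maximal ideal `𝔪` of
`ℤ̄` give the eigencharacter `θ_f : HeckeAlg →+* ℤ̄` of the free Hecke ring, the maximal ideal
`𝔫 = θ_f⁻¹(𝔪)`, and the SUPPORT statement `Λ_N ≠ 𝔫 · Λ_N` (Nakayama on the finitely generated
module `Λ_N`, on which `Ann(Λ_N) ⊂ ker θ_f` by the faithfulness theorem of J2).  These are the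
`𝔪`, `hmax`, `hpm`, `hdet`, `hsupp`, `h𝔫max` inputs of `GM/Alg`.
-/
import Fermat.Agent.GM.End.LatToForm

set_option autoImplicit false

open scoped MatrixGroups
open CongruenceSubgroup ModularCurve ModularCurve.Period CuspForm ModularFormClass

namespace Fermat.Agent.GM.End

open Fermat.Agent.GJ.J2.Lat Fermat.Agent.GJ.EigChar

section FormToLat

variable (M : ℕ) [NeZero M]

/-- `Λ_M` as a module over the free Hecke ring, through `evLat` (NOT an instance). -/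
@[reducible] noncomputable def lamModule : Module HeckeAlg (Lam M) :=
  Module.compHom (Lam M)
    (((latAlg M).val : latAlg M →+* Module.End ℤ (Lam M)).comp
      (evLat M : HeckeAlg →+* latAlg M))

theorem lamModule_smul (P : HeckeAlg) (x : Lam M) :
    letI := lamModule M
    P • x = actL M P x := rfl

variable {M}

/-- The eigencharacter of a normalised eigenform on the free Hecke ring. -/
noncomputable def thetaOf {f : CuspForm (Gamma0 M) 2} (hf : f.IsNormalizedEigenform) :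
    HeckeAlg →+* integralClosure ℤ ℂ :=
  (lamInt (S := (∅ : Set ℕ)) hf).comp (heckeEvalForms M 2)

theorem thetaOf_heckeGen {f : CuspForm (Gamma0 M) 2} (hf : f.IsNormalizedEigenform)
    (l : Nat.Primes) :
    ((thetaOf hf (heckeGen l) : integralClosure ℤ ℂ) : ℂ) = qCoeff f l := by
  rw [thetaOf, RingHom.comp_apply, coe_lamInt]
  by_cases hl : (l : ℕ) ∣ M
  · rw [heckeEvalForms_heckeGen_of_dvd hl, lam_U]
  · rw [heckeEvalForms_heckeGen_of_not_dvd hl, lam_T]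

theorem thetaOf_C {f : CuspForm (Gamma0 M) 2} (hf : f.IsNormalizedEigenform) (n : ℤ) :
    thetaOf hf (MvPolynomial.C n) = (n : integralClosure ℤ ℂ) :=
  RingHom.congr_fun (RingHom.ext_int ((thetaOf hf).comp MvPolynomial.C)
    (Int.castRingHom (integralClosure ℤ ℂ))) n

/-- The action of the free Hecke ring on `f` is through `θ_f`. -/
theorem actF_eq_thetaOf_smul {f : CuspForm (Gamma0 M) 2} (hf : f.IsNormalizedEigenform)
    (P : HeckeAlg) :
    actF M P f = ((thetaOf hf P : integralClosure ℤ ℂ) : ℂ) • f := by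
  rw [actF_apply, thetaOf, RingHom.comp_apply, coe_lamInt]
  exact lam_spec hf _

/-- **Faithfulness**: a Hecke polynomial killing the lattice is killed by `θ_f`. -/
theorem thetaOf_eq_zero_of_actL {f : CuspForm (Gamma0 M) 2} (hf : f.IsNormalizedEigenform)
    (P : HeckeAlg) (hP : ∀ x : Lam M, actL M P x = 0) : thetaOf hf P = 0 := by
  have h0 : evLat M P = 0 := by
    apply Subtype.ext
    refine LinearMap.ext fun x => ?_
    exact hP x
  have h1 : heckeEvalForms M 2 P = 0 := heckeEvalForms_eq_zero_of_evLat_eq_zero M P h0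
  rw [thetaOf, RingHom.comp_apply, h1, map_zero]

/-- The pull-back of a maximal ideal of `ℤ̄` under any ring homomorphism is maximal. -/
theorem isMaximal_comap_integralClosure {T : Type*} [CommRing T]
    (φ : T →+* integralClosure ℤ ℂ) (𝔪 : Ideal (integralClosure ℤ ℂ)) [h𝔪 : 𝔪.IsMaximal] :
    (𝔪.comap φ).IsMaximal := by
  let _ : Algebra T (integralClosure ℤ ℂ) := φ.toAlgebra
  have : IsScalarTower ℤ T (integralClosure ℤ ℂ) :=
    IsScalarTower.of_algebraMap_eq' (RingHom.ext_int _ _)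
  have : Algebra.IsIntegral T (integralClosure ℤ ℂ) :=
    ⟨fun x => IsIntegral.tower_top (integralClosure.isIntegral x)⟩
  exact Ideal.isMaximal_comap_of_isIntegral_of_isMaximal (R := T) 𝔪

/-- **Support**: `Λ_M ≠ 𝔫 · Λ_M` for `𝔫 = θ_f⁻¹(𝔪)`. -/
theorem exists_notMem_smul_top {f : CuspForm (Gamma0 M) 2} (hf : f.IsNormalizedEigenform)
    (𝔪 : Ideal (integralClosure ℤ ℂ)) (h𝔪 : 𝔪 ≠ ⊤) :
    letI := lamModule M
    ∃ x : Lam M, x ∉ (𝔪.comap (thetaOf hf)) • (⊤ : Submodule HeckeAlg (Lam M)) := by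
  let _ := lamModule M
  by_contra hcon
  push Not at hcon
  have hst : IsScalarTower ℤ HeckeAlg (Lam M) := by
    refine ⟨fun n P x => ?_⟩
    show actL M (n • P) x = n • actL M P x
    rw [zsmul_eq_mul, actL_mul]
    have : ((n : ℤ) : HeckeAlg) = MvPolynomial.C n := by simp
    rw [this, actL_C]
  have hfin : Module.Finite HeckeAlg (Lam M) := Module.Finite.of_restrictScalars_finite ℤ _ _
  have hle : (⊤ : Submodule HeckeAlg (Lam M)) ≤
      (𝔪.comap (thetaOf hf)) • (⊤ : Submodule HeckeAlg (Lam M)) := fun x _ => hcon x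
  obtain ⟨r, hr1, hr0⟩ :=
    Submodule.exists_sub_one_mem_and_smul_eq_zero_of_fg_of_le_smul _ _ hfin.fg_top hle
  have hθr : thetaOf hf r = 0 :=
    thetaOf_eq_zero_of_actL hf r (fun x => hr0 x Submodule.mem_top)
  have h1 : thetaOf hf (r - 1) ∈ 𝔪 := hr1
  rw [map_sub, hθr, map_one, zero_sub, neg_mem_iff] at h1
  exact h𝔪 ((Ideal.eq_top_iff_one _).2 h1)

/-- **Support**, instance-free form: some class of `Λ_M` is not a sum of classes `P · z` with
`P ∈ 𝔫 = θ_f⁻¹(𝔪)`. -/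
theorem exists_notMem_closure {f : CuspForm (Gamma0 M) 2} (hf : f.IsNormalizedEigenform)
    (𝔪 : Ideal (integralClosure ℤ ℂ)) (h𝔪 : 𝔪 ≠ ⊤) :
    ∃ x : Lam M, x ∉ AddSubgroup.closure
      {y : Lam M | ∃ P ∈ 𝔪.comap (thetaOf hf), ∃ z : Lam M, y = actL M P z} := by
  let _ := lamModule M
  obtain ⟨x, hx⟩ := exists_notMem_smul_top hf 𝔪 h𝔪
  refine ⟨x, fun hmem => hx ?_⟩
  have hle : AddSubgroup.closure
      {y : Lam M | ∃ P ∈ 𝔪.comap (thetaOf hf), ∃ z : Lam M, y = actL M P z} ≤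
      ((𝔪.comap (thetaOf hf)) • (⊤ : Submodule HeckeAlg (Lam M))).toAddSubgroup := by
    rw [AddSubgroup.closure_le]
    rintro y ⟨P, hP, z, rfl⟩
    exact Submodule.smul_mem_smul hP (Submodule.mem_top (x := z))
  exact hle hmem

/-! ### Membership lemmas in the shape of the hypotheses of `S41` -/

section Mem

variable {f : CuspForm (Gamma0 M) 2} (hf : f.IsNormalizedEigenform)
  (𝔪 : Ideal (integralClosure ℤ ℂ))

theorem thetaOf_heckeGen_eq (l : Nat.Primes) {c : integralClosure ℤ ℂ}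
    (hc : (c : ℂ) = qCoeff f l) : thetaOf hf (heckeGen l) = c :=
  Subtype.ext ((thetaOf_heckeGen hf l).trans hc.symm)

theorem C_natCast_mem_comap {p : ℕ} (hpm : (p : integralClosure ℤ ℂ) ∈ 𝔪) :
    (MvPolynomial.C (p : ℤ) : HeckeAlg) ∈ 𝔪.comap (thetaOf hf) := by
  rw [Ideal.mem_comap, thetaOf_C]
  exact_mod_cast hpm

theorem heckeGen_sub_C_mem_comap (l : Nat.Primes) (a : ℤ) {c : integralClosure ℤ ℂ}
    (hc : (c : ℂ) = qCoeff f l) (h : c - (a : integralClosure ℤ ℂ) ∈ 𝔪) :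
    heckeGen l - MvPolynomial.C a ∈ 𝔪.comap (thetaOf hf) := by
  rw [Ideal.mem_comap, map_sub, thetaOf_C, thetaOf_heckeGen_eq hf l hc]
  exact h

theorem heckeGen_sub_C_notMem_comap (l : Nat.Primes) (a : ℤ) {c : integralClosure ℤ ℂ}
    (hc : (c : ℂ) = qCoeff f l) (h : c - (a : integralClosure ℤ ℂ) ∉ 𝔪) :
    heckeGen l - MvPolynomial.C a ∉ 𝔪.comap (thetaOf hf) := by
  rw [Ideal.mem_comap, map_sub, thetaOf_C, thetaOf_heckeGen_eq hf l hc]
  exact h

theorem sq_sub_sq_mem_comap (l : Nat.Primes) {c : integralClosure ℤ ℂ}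
    (hc : (c : ℂ) = qCoeff f l)
    (h : c ^ 2 - (((l : ℕ) : integralClosure ℤ ℂ) + 1) ^ 2 ∈ 𝔪) :
    heckeGen l ^ 2 - (MvPolynomial.C (((l : ℕ) : ℤ) + 1) : HeckeAlg) ^ 2 ∈
      𝔪.comap (thetaOf hf) := by
  rw [Ideal.mem_comap, map_sub, map_pow, map_pow, thetaOf_C, thetaOf_heckeGen_eq hf l hc]
  push_cast
  exact h

end Mem

/-- **The supply package of level raising**, in the shape of the hypotheses of `S41`: the ideal
`𝔫 = θ_f⁻¹(𝔪)` of the free Hecke ring is maximal, contains `p`, the `X_ℓ − a ℓ` for the selected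
primes, `X_q² − (q+1)²`, the annihilator of the lattice, and `Λ_M ≠ 𝔫 · Λ_M`. -/
theorem supply_of_eigenform {p q : ℕ} {f : CuspForm (Gamma0 M) 2}
    (hf : f.IsNormalizedEigenform) (𝔪 : Ideal (integralClosure ℤ ℂ)) (hmax : 𝔪.IsMaximal)
    (hpm : (p : integralClosure ℤ ℂ) ∈ 𝔪) (a : ℕ → ℤ) (good : ℕ → Prop)
    (hcong : ∀ ℓ : ℕ, ℓ.Prime → good ℓ → ¬ ℓ ∣ M → ℓ ≠ p →
      ∃ c : integralClosure ℤ ℂ, (c : ℂ) = qCoeff f ℓ ∧
        c - ((a ℓ : ℤ) : integralClosure ℤ ℂ) ∈ 𝔪)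
    (hq : q.Prime)
    (hLR : ∃ c : integralClosure ℤ ℂ, (c : ℂ) = qCoeff f q ∧
      c ^ 2 - ((q : integralClosure ℤ ℂ) + 1) ^ 2 ∈ 𝔪) :
    (𝔪.comap (thetaOf hf)).IsMaximal ∧
    (MvPolynomial.C (p : ℤ) : HeckeAlg) ∈ 𝔪.comap (thetaOf hf) ∧
    (∀ (ℓ : ℕ) (hℓ : ℓ.Prime), good ℓ → ¬ ℓ ∣ M → ℓ ≠ p →
      heckeGen ⟨ℓ, hℓ⟩ - MvPolynomial.C (a ℓ) ∈ 𝔪.comap (thetaOf hf)) ∧
    (heckeGen ⟨q, hq⟩ ^ 2 - (MvPolynomial.C ((q : ℤ) + 1) : HeckeAlg) ^ 2 ∈
      𝔪.comap (thetaOf hf)) ∧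
    annSet M Set.univ ≤ 𝔪.comap (thetaOf hf) ∧
    (∃ x : Lam M, x ∉ AddSubgroup.closure
      {y : Lam M | ∃ P ∈ 𝔪.comap (thetaOf hf), ∃ z : Lam M, y = actL M P z}) := by
  refine ⟨isMaximal_comap_integralClosure (thetaOf hf) 𝔪, C_natCast_mem_comap hf 𝔪 hpm, ?_, ?_,
    ?_, exists_notMem_closure hf 𝔪 hmax.ne_top⟩
  · intro ℓ hℓ hgood hℓM hℓp
    obtain ⟨c, hc, hcm⟩ := hcong ℓ hℓ hgood hℓM hℓp
    exact heckeGen_sub_C_mem_comap hf 𝔪 ⟨ℓ, hℓ⟩ (a ℓ) hc hcm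
  · obtain ⟨c, hc, hcm⟩ := hLR
    exact sq_sub_sq_mem_comap hf 𝔪 ⟨q, hq⟩ hc hcm
  · intro P hP
    rw [Ideal.mem_comap, thetaOf_eq_zero_of_actL hf P (fun x => hP x (Set.mem_univ x))]
    exact 𝔪.zero_mem

end FormToLat

end Fermat.Agent.GM.End
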