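/-
GATE-M / S41-(E) ENDGAME, abstract half (helper85).  Mathlib + `S49_helper65/AbstractDS` only.

A family of commuting `ℂ`-linear operators `op i` on a `ℂ`-vector space `V`, a finitely generated
`ℤ`-submodule `L ⊆ V` stable under them, an element `x ∈ L`, `x ∉ p L`, which is an eigenvector
MODULO `p L` for the operators indexed by `G` with integer eigenvalues `a i`.  Then there is an
honest common eigenvector `v ≠ 0` in the `ℂ`-span of `L`, with algebraic-integer eigenvalues
`θ i`, and a maximal ideal `𝔪'` of the algebraic integers containing `p` and all `θ i - a i`,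
`i ∈ G`  (Deligne–Serre lifting on the lattice `L`).

* `isIntegral_of_mapsTo_lattice` : an endomorphism preserving a f.g. spanning lattice is integral
* `exists_eigen_of_spanning_lattice` : the statement when `L` spans `V` and `V` is finite-dimensional
* `exists_eigen_of_lattice` : the general statement (restrict to the span of `L`)
-/
import Mathlib
import Fermat.Agent.S49_helper65.AbstractDS

set_option autoImplicit false

namespace Fermat.Agent.GM.End

open Module Polynomial

section Integral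

variable {V : Type*} [AddCommGroup V] [Module ℂ V]

/-- The `ℤ`-linear endomorphism of a lattice `L` induced by an endomorphism preserving it. -/
def latRestrict (L : Submodule ℤ V) (t : Module.End ℂ V) (ht : ∀ v ∈ L, t v ∈ L) :
    Module.End ℤ L where
  toFun v := ⟨t v, ht v v.2⟩
  map_add' v w := by
    apply Subtype.ext
    simp
  map_smul' c v := by
    apply Subtype.ext
    simp

@[simp] theorem coe_latRestrict (L : Submodule ℤ V) (t : Module.End ℂ V)
    (ht : ∀ v ∈ L, t v ∈ L) (v : L) : ((latRestrict L t ht v : L) : V) = t v := rfl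

theorem coe_latRestrict_pow (L : Submodule ℤ V) (t : Module.End ℂ V)
    (ht : ∀ v ∈ L, t v ∈ L) (n : ℕ) (v : L) :
    (((latRestrict L t ht) ^ n) v : V) = (t ^ n) v := by
  induction n generalizing v with
  | zero => simp
  | succ n ih =>
    rw [pow_succ, pow_succ, Module.End.mul_apply, Module.End.mul_apply, ih, coe_latRestrict]

theorem coe_aeval_latRestrict (L : Submodule ℤ V) (t : Module.End ℂ V)
    (ht : ∀ v ∈ L, t v ∈ L) (P : ℤ[X]) (v : L) :
    ((aeval (latRestrict L t ht) P) v : V) = (aeval t P) v := by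
  induction P using Polynomial.induction_on' with
  | add P Q hP hQ =>
    rw [map_add, map_add, LinearMap.add_apply, LinearMap.add_apply, Submodule.coe_add, hP, hQ]
  | monomial n a =>
    rw [aeval_monomial, aeval_monomial, Module.End.mul_apply, Module.End.mul_apply,
      Module.algebraMap_end_apply, Module.algebraMap_end_apply, Submodule.coe_smul,
      coe_latRestrict_pow]

/-- An endomorphism of a `ℂ`-vector space preserving a finitely generated `ℤ`-submodule which
spans is integral over `ℤ`. -/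
theorem isIntegral_of_mapsTo_lattice (L : Submodule ℤ V) (hLfg : L.FG)
    (hLspan : Submodule.span ℂ (L : Set V) = ⊤) (t : Module.End ℂ V)
    (ht : ∀ v ∈ L, t v ∈ L) : IsIntegral ℤ t := by
  have : Module.Finite ℤ L := Module.Finite.iff_fg.mpr hLfg
  obtain ⟨P, hPm, hP⟩ := LinearMap.exists_monic_and_aeval_eq_zero ℤ (latRestrict L t ht)
  refine ⟨P, hPm, ?_⟩
  show aeval t P = 0
  have hzero : ∀ v ∈ L, (aeval t P) v = 0 := by
    intro v hv
    have := coe_aeval_latRestrict L t ht P ⟨v, hv⟩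
    rw [hP] at this
    exact this.symm
  refine LinearMap.ext fun v => ?_
  have hv : v ∈ Submodule.span ℂ (L : Set V) := by rw [hLspan]; trivial
  rw [LinearMap.zero_apply]
  induction hv using Submodule.span_induction with
  | mem w hw => exact hzero w hw
  | zero => exact map_zero _
  | add u w _ _ hu hw => rw [map_add, hu, hw, add_zero]
  | smul c u _ hu => rw [map_smul, hu, smul_zero]

end Integral

section Spanning

variable {V : Type*} [AddCommGroup V] [Module ℂ V] [FiniteDimensional ℂ V]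
variable {ι : Type*} (op : ι → Module.End ℂ V)

/-- The `ℤ`-algebra generated by the operators. -/
def opAlg : Subalgebra ℤ (Module.End ℂ V) := Algebra.adjoin ℤ (Set.range op)

omit [FiniteDimensional ℂ V] in
theorem opAlg_isMulCommutative (hcomm : ∀ i j, Commute (op i) (op j)) :
    IsMulCommutative (opAlg op) :=
  Algebra.isMulCommutative_adjoin ℤ fun _ hT _ hT' => by
    obtain ⟨i, rfl⟩ := hT
    obtain ⟨j, rfl⟩ := hT'
    exact hcomm i j

omit [FiniteDimensional ℂ V] in
theorem opAlg_mapsTo (L : Submodule ℤ V) (hLstab : ∀ i, ∀ v ∈ L, op i v ∈ L)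
    (t : Module.End ℂ V) (ht : t ∈ opAlg op) : ∀ v ∈ L, t v ∈ L := by
  refine Algebra.adjoin_induction (p := fun t _ => ∀ v ∈ L, t v ∈ L) ?_ ?_ ?_ ?_ ht
  · rintro _ ⟨i, rfl⟩ v hv
    exact hLstab i v hv
  · intro r v hv
    rw [Module.algebraMap_end_apply]
    exact L.smul_mem r hv
  · intro s t _ _ hs ht v hv
    rw [LinearMap.add_apply]
    exact L.add_mem (hs v hv) (ht v hv)
  · intro s t _ _ hs ht v hv
    rw [Module.End.mul_apply]
    exact hs _ (ht v hv)

open scoped IsMulCommutative in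
/-- **Deligne–Serre lifting on a spanning lattice.** -/
theorem exists_eigen_of_spanning_lattice (hcomm : ∀ i j, Commute (op i) (op j))
    (L : Submodule ℤ V) (hLfg : L.FG) (hLspan : Submodule.span ℂ (L : Set V) = ⊤)
    (hLstab : ∀ i, ∀ v ∈ L, op i v ∈ L)
    (p : ℕ) (G : Set ι) (a : ι → ℤ) (x : V) (hxL : x ∈ L) (hxp : ∀ y ∈ L, x ≠ (p : ℤ) • y)
    (hx : ∀ i ∈ G, ∃ y ∈ L, op i x - a i • x = (p : ℤ) • y) :
    ∃ (v : V) (θ : ι → integralClosure ℤ ℂ) (𝔪' : Ideal (integralClosure ℤ ℂ)),
      v ≠ 0 ∧ 𝔪'.IsMaximal ∧ (p : integralClosure ℤ ℂ) ∈ 𝔪' ∧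
      (∀ i, op i v = ((θ i : integralClosure ℤ ℂ) : ℂ) • v) ∧
      (∀ i ∈ G, θ i - ((a i : ℤ) : integralClosure ℤ ℂ) ∈ 𝔪') := by
  have hC : IsMulCommutative (opAlg op) := opAlg_isMulCommutative op hcomm
  let T := opAlg op
  let φ : T →+* Module.End ℂ V := (opAlg op).val.toRingHom
  have hφ : Function.Injective φ := Subtype.val_injective
  have hint : ∀ t : T, IsIntegral ℤ t := by
    intro t
    have h1 : IsIntegral ℤ (t : Module.End ℂ V) :=
      isIntegral_of_mapsTo_lattice L hLfg hLspan _ (opAlg_mapsTo op L hLstab _ t.2)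
    exact (isIntegral_algHom_iff (opAlg op).val Subtype.val_injective).mp h1
  -- the ideal of operators sending `x` into `p L`
  let J : Ideal T :=
    { carrier := {t | ∃ y ∈ L, (t : Module.End ℂ V) x = (p : ℤ) • y}
      add_mem' := by
        rintro s t ⟨y, hy, hs⟩ ⟨z, hz, ht⟩
        refine ⟨y + z, L.add_mem hy hz, ?_⟩
        rw [Subalgebra.coe_add, LinearMap.add_apply, hs, ht, smul_add]
      zero_mem' := ⟨0, L.zero_mem, by simp⟩
      smul_mem' := by
        rintro s t ⟨y, hy, ht⟩
        refine ⟨(s : Module.End ℂ V) y, opAlg_mapsTo op L hLstab _ s.2 y hy, ?_⟩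
        rw [smul_eq_mul, Subalgebra.coe_mul, Module.End.mul_apply, ht, map_zsmul] }
  have hJtop : J ≠ ⊤ := by
    intro h
    have h1 : (1 : T) ∈ J := by rw [h]; trivial
    obtain ⟨y, hy, h1y⟩ := h1
    rw [Subalgebra.coe_one, Module.End.one_apply] at h1y
    exact hxp y hy h1y
  obtain ⟨𝔫, h𝔫max, hJ𝔫⟩ := Ideal.exists_le_maximal J hJtop
  obtain ⟨v, θ, 𝔪', hv0, hθ, h𝔪', hcomap⟩ :=
    Fermat.Agent.S49_helper65.abstract_deligne_serre φ hφ hint 𝔫
  let gen : ι → T := fun i => ⟨op i, Algebra.subset_adjoin ⟨i, rfl⟩⟩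
  refine ⟨v, fun i => θ (gen i), 𝔪', hv0, h𝔪', ?_, fun i => hθ (gen i), ?_⟩
  · have hp : ((p : ℤ) : T) ∈ J := by
      refine ⟨x, hxL, ?_⟩
      rw [SubringClass.coe_intCast, Module.End.intCast_apply]
    have : ((p : ℤ) : T) ∈ 𝔪'.comap θ := by rw [hcomap]; exact hJ𝔫 hp
    rw [Ideal.mem_comap, map_intCast] at this
    exact_mod_cast this
  · intro i hi
    have hg : gen i - ((a i : ℤ) : T) ∈ J := by
      obtain ⟨y, hy, hxy⟩ := hx i hi
      refine ⟨y, hy, ?_⟩
      rw [Subalgebra.coe_sub, SubringClass.coe_intCast, LinearMap.sub_apply,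
        Module.End.intCast_apply, ← hxy]
    have : gen i - ((a i : ℤ) : T) ∈ 𝔪'.comap θ := by rw [hcomap]; exact hJ𝔫 hg
    rw [Ideal.mem_comap, map_sub, map_intCast] at this
    exact this

end Spanning

section CommonEigen

variable {V : Type*} [AddCommGroup V] [Module ℂ V] [FiniteDimensional ℂ V]
variable {ι : Type*} (op : ι → Module.End ℂ V)

open scoped IsMulCommutative in
/-- A commuting family of endomorphisms of a nonzero finite-dimensional complex vector space has a
common eigenvector. -/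
theorem exists_common_eigenvector [Nontrivial V] (hcomm : ∀ i j, Commute (op i) (op j)) :
    ∃ (v : V) (c : ι → ℂ), v ≠ 0 ∧ ∀ i, op i v = c i • v := by
  have hC : IsMulCommutative (opAlg op) := opAlg_isMulCommutative op hcomm
  let T := opAlg op
  let φ : T →+* Module.End ℂ V := (opAlg op).val.toRingHom
  have hφ : Function.Injective φ := Subtype.val_injective
  have hnt : Nontrivial T := by
    refine ⟨⟨0, 1, fun h => ?_⟩⟩
    have h' : ((0 : T) : Module.End ℂ V) = ((1 : T) : Module.End ℂ V) := congrArg _ h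
    rw [Subalgebra.coe_zero, Subalgebra.coe_one] at h'
    obtain ⟨w, hw⟩ := exists_ne (0 : V)
    apply hw
    have := congrArg (fun t : Module.End ℂ V => t w) h'
    simpa using this.symm
  obtain ⟨𝔫, h𝔫⟩ := Ideal.exists_maximal T
  have h𝔫p : 𝔫.IsPrime := h𝔫.isPrime
  obtain ⟨v, θ, hv0, hθ, -⟩ := Fermat.Agent.S49_helper65.exists_eigenvector_ker_le φ hφ 𝔫
  exact ⟨v, fun i => θ ⟨op i, Algebra.subset_adjoin ⟨i, rfl⟩⟩, hv0,
    fun i => hθ ⟨op i, Algebra.subset_adjoin ⟨i, rfl⟩⟩⟩

/-- A commuting family has a common eigenvector in every nonzero stable subspace. -/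
theorem exists_common_eigenvector_mem (hcomm : ∀ i j, Commute (op i) (op j))
    (E : Submodule ℂ V) (hE : E ≠ ⊥) (hEstab : ∀ i, ∀ v ∈ E, op i v ∈ E) :
    ∃ (v : V) (c : ι → ℂ), v ∈ E ∧ v ≠ 0 ∧ ∀ i, op i v = c i • v := by
  have hnt : Nontrivial E := Submodule.nontrivial_iff_ne_bot.mpr hE
  let op' : ι → Module.End ℂ E := fun i => (op i).restrict (hEstab i)
  have hcomm' : ∀ i j, Commute (op' i) (op' j) := by
    intro i j
    show op' i * op' j = op' j * op' i
    refine LinearMap.ext fun w => Subtype.ext ?_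
    show op i (op j w) = op j (op i w)
    have := congrArg (fun t : Module.End ℂ V => t (w : V)) (hcomm i j).eq
    exact this
  obtain ⟨v, c, hv0, hc⟩ := exists_common_eigenvector op' hcomm'
  refine ⟨v, c, v.2, fun h => hv0 (Subtype.ext h), fun i => ?_⟩
  have := congrArg (Subtype.val : E → V) (hc i)
  exact this

end CommonEigen

section General

variable {V : Type*} [AddCommGroup V] [Module ℂ V]
variable {ι : Type*} (op : ι → Module.End ℂ V)

/-- **Deligne–Serre lifting on a lattice** (general form): `L` need not span, the operators need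
only commute on `L`; the eigenvector is found in the `ℂ`-span of `L`. -/
theorem exists_eigen_of_lattice
    (L : Submodule ℤ V) (hLfg : L.FG)
    (hLstab : ∀ i, ∀ v ∈ L, op i v ∈ L)
    (hcomm : ∀ i j, ∀ v ∈ L, op i (op j v) = op j (op i v))
    (p : ℕ) (G : Set ι) (a : ι → ℤ) (x : V) (hxL : x ∈ L) (hxp : ∀ y ∈ L, x ≠ (p : ℤ) • y)
    (hx : ∀ i ∈ G, ∃ y ∈ L, op i x - a i • x = (p : ℤ) • y) :
    ∃ (v : V) (θ : ι → integralClosure ℤ ℂ) (𝔪' : Ideal (integralClosure ℤ ℂ)),
      v ∈ Submodule.span ℂ (L : Set V) ∧ v ≠ 0 ∧ 𝔪'.IsMaximal ∧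
      (p : integralClosure ℤ ℂ) ∈ 𝔪' ∧
      (∀ i, op i v = ((θ i : integralClosure ℤ ℂ) : ℂ) • v) ∧
      (∀ i ∈ G, θ i - ((a i : ℤ) : integralClosure ℤ ℂ) ∈ 𝔪') := by
  classical
  set W : Submodule ℂ V := Submodule.span ℂ (L : Set V) with hW
  -- finite-dimensionality of the span
  obtain ⟨S, hS⟩ := hLfg
  have hWS : W = Submodule.span ℂ (S : Set V) := by
    rw [hW, ← hS, Submodule.span_span_of_tower]
  have hfd : FiniteDimensional ℂ W := by
    rw [hWS]
    exact FiniteDimensional.span_finset ℂ S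
  have hLW : ∀ v ∈ L, v ∈ W := fun v hv => Submodule.subset_span hv
  have hWstab : ∀ i, ∀ w ∈ W, op i w ∈ W := by
    intro i w hw
    have : Submodule.map (op i) W ≤ W :=
      (Submodule.map_span_le (op i) _ W).mpr fun v hv => hLW _ (hLstab i v hv)
    exact this ⟨w, hw, rfl⟩
  let op' : ι → Module.End ℂ W := fun i => (op i).restrict (hWstab i)
  have hop' : ∀ i (w : W), ((op' i w : W) : V) = op i w := fun _ _ => rfl
  have hcomm' : ∀ i j, Commute (op' i) (op' j) := by
    intro i j
    show op' i * op' j = op' j * op' i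
    refine LinearMap.ext fun w => Subtype.ext ?_
    rw [Module.End.mul_apply, Module.End.mul_apply, hop', hop', hop', hop']
    have hEq : Set.EqOn ((op i).comp (op j)) ((op j).comp (op i)) (L : Set V) :=
      fun v hv => hcomm i j v hv
    exact LinearMap.eqOn_span hEq w.2
  -- the lattice inside `W`
  let incl : L →ₗ[ℤ] W :=
    { toFun := fun v => ⟨v, hLW v v.2⟩
      map_add' := fun _ _ => rfl
      map_smul' := fun _ _ => rfl }
  let L' : Submodule ℤ W := LinearMap.range incl
  have hL'mem : ∀ w : W, w ∈ L' ↔ (w : V) ∈ L := by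
    intro w
    constructor
    · rintro ⟨v, rfl⟩
      exact v.2
    · intro h
      exact ⟨⟨w, h⟩, rfl⟩
  have hL'fg : L'.FG := by
    have htop : (⊤ : Submodule ℤ L).FG := (Submodule.fg_top L).mpr ⟨S, hS⟩
    have := htop.map incl
    rwa [Submodule.map_top] at this
  have hL'span : Submodule.span ℂ (L' : Set W) = ⊤ := by
    have hset : (L' : Set W) = ((↑) : W → V) ⁻¹' (L : Set V) := by
      ext w
      exact hL'mem w
    rw [hset]
    exact Submodule.span_span_coe_preimage
  have hL'stab : ∀ i, ∀ w ∈ L', op' i w ∈ L' := by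
    intro i w hw
    rw [hL'mem] at hw ⊢
    exact hLstab i _ hw
  have hxp' : ∀ y ∈ L', (⟨x, hLW x hxL⟩ : W) ≠ (p : ℤ) • y := by
    intro y hy h
    refine hxp (y : V) ((hL'mem y).mp hy) ?_
    have := congrArg (Subtype.val : W → V) h
    simpa using this
  have hx' : ∀ i ∈ G, ∃ y ∈ L', op' i (⟨x, hLW x hxL⟩ : W) - a i • (⟨x, hLW x hxL⟩ : W)
      = (p : ℤ) • y := by
    intro i hi
    obtain ⟨y, hy, hxy⟩ := hx i hi
    refine ⟨⟨y, hLW y hy⟩, (hL'mem _).mpr hy, Subtype.ext ?_⟩
    have e1 : ((op' i (⟨x, hLW x hxL⟩ : W) - a i • (⟨x, hLW x hxL⟩ : W) : W) : V)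
        = op i x - a i • x := by
      rw [Submodule.coe_sub, hop', AddSubgroupClass.coe_zsmul]
    have e2 : (((p : ℤ) • (⟨y, hLW y hy⟩ : W) : W) : V) = (p : ℤ) • y := by
      rw [AddSubgroupClass.coe_zsmul]
    rw [e1, e2, hxy]
  obtain ⟨v, θ, 𝔪', hv0, h𝔪', hp𝔪, hθ, hG⟩ :=
    exists_eigen_of_spanning_lattice op' hcomm' L' hL'fg hL'span hL'stab p G a
      ⟨x, hLW x hxL⟩ ((hL'mem _).mpr hxL) hxp' hx'
  refine ⟨v, θ, 𝔪', v.2, fun h => hv0 (Subtype.ext h), h𝔪', hp𝔪, fun i => ?_, hG⟩
  have := congrArg (Subtype.val : W → V) (hθ i)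
  rw [hop', Submodule.coe_smul] at this
  exact this

end General

end Fermat.Agent.GM.End
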