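/-
GATE-M / S41-(E) ENDGAME (helper85).

From a MOD `p` Hecke eigenclass in a Hecke-stable sublattice `K` of
`Λ_M = parabolicHoms ℤ Γ₀(M) ℤ` (in the application `M = N q'` and `K = ker β`, the `q'`-new
lattice, on which `U_{q'}² = 1`) to a normalised eigenform `g` of level `M` with
`a_{q'}(g)² = 1`, congruent to the given eigenvalues modulo a maximal ideal of the algebraic
integers over `p`.

Inputs are phrased with the on-main lattice Hecke operators `GJ.J2.Lat.latT M l` (any prime `l`,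
`U`-type when `l ∣ M`).

* `exists_eigenform_of_lattice_class` : the general statement
* `exists_eigenform_of_saturated` : same, `K` saturated at `p`, `x ∉ p Λ`
* `s41_conclusion_of_lattice_class` : conclusion in the exact shape of the frozen S41
-/
import Mathlib
import Fermat.Agent.GM.End.AbsLattice
import Fermat.Agent.GJ.J2.Lattice
import Fermat.Agent.S49_helper65.Eigenform
import Fermat.Agent.S23.FinDim
import Fermat.Prelude.Def_FreyPackage_LevelRaising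

set_option autoImplicit false

open scoped MatrixGroups
open CongruenceSubgroup ModularCurve ModularCurve.Period CuspForm ModularFormClass

namespace Fermat.Agent.GM.End

open Fermat.Agent.S16_helper49 Fermat.Agent.GJ.J2.Lat

variable (M : ℕ) [NeZero M]

/-- `cohGen ℂ l` as a `ℂ`-linear endomorphism of `Hom(Γ₀(M), ℂ)`. -/
noncomputable def cohLin (l : Nat.Primes) : Module.End ℂ (Additive (Gamma0 M) →+ ℂ) where
  toFun := cohGen M ℂ l
  map_add' := map_add _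
  map_smul' c φ := cohGen_smul M l c φ

@[simp] theorem cohLin_apply (l : Nat.Primes) (φ : Additive (Gamma0 M) →+ ℂ) :
    cohLin M l φ = cohGen M ℂ l φ := rfl

/-- The Hecke operator `T_l` / `U_l` on forms as an endomorphism. -/
noncomputable def formOp (l : Nat.Primes) : Module.End ℂ (CuspForm (Gamma0 M) 2) :=
  (heckeFormsGen M 2 l : Module.End ℂ (CuspForm (Gamma0 M) 2))

theorem formOp_commute (l l' : Nat.Primes) : Commute (formOp M l) (formOp M l') := by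
  show formOp M l * formOp M l' = formOp M l' * formOp M l
  have := congrArg (fun t : heckeAlgebra M 2 ∅ => (t : Module.End ℂ (CuspForm (Gamma0 M) 2)))
    (mul_comm (heckeFormsGen M 2 l) (heckeFormsGen M 2 l'))
  exact this

theorem formOp_of_not_dvd {ℓ : ℕ} (hℓ : ℓ.Prime) (hℓM : ¬ ℓ ∣ M) :
    formOp M ⟨ℓ, hℓ⟩ = heckeTLin 2 hℓ hℓM := by
  unfold formOp
  rw [heckeFormsGen_of_not_dvd (ℓ := ⟨ℓ, hℓ⟩) hℓM]
  rfl

theorem formOp_of_dvd {ℓ : ℕ} (hℓ : ℓ.Prime) (hℓM : ℓ ∣ M) :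
    formOp M ⟨ℓ, hℓ⟩ = heckeULin 2 hℓM := by
  unfold formOp
  rw [heckeFormsGen_of_dvd (q := ⟨ℓ, hℓ⟩) hℓM]
  rfl

/-- Period equivariance in terms of `formOp` and `cohLin`. -/
theorem periodHomPair_formOp (l : Nat.Primes) (f g : CuspForm (Gamma0 M) 2) :
    periodHomPair M (formOp M l f, formOp M l g) = cohLin M l (periodHomPair M (f, g)) :=
  periodHomPair_cohGen M l f g

/-- **Endgame, general form.** -/
theorem exists_eigenform_of_lattice_class
    (p : ℕ) (q : Nat.Primes) (G : Set Nat.Primes) (a : Nat.Primes → ℤ)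
    (K : Submodule ℤ (Lam M))
    (hKstab : ∀ l : Nat.Primes, (l ∈ G ∨ l = q) → ∀ y ∈ K, latT M l y ∈ K)
    (hKq : ∀ y ∈ K, latT M q (latT M q y) = y)
    (x : Lam M) (hxK : x ∈ K) (hxp : ∀ y ∈ K, x ≠ (p : ℤ) • y)
    (hx : ∀ l ∈ G, ∃ y ∈ K, latT M l x - a l • x = (p : ℤ) • y) :
    ∃ (g : CuspForm (Gamma0 M) 2) (𝔪' : Ideal (integralClosure ℤ ℂ)),
      g.IsNormalizedEigenform ∧ 𝔪'.IsMaximal ∧ (p : integralClosure ℤ ℂ) ∈ 𝔪' ∧
      (∀ l ∈ G, ∃ c : integralClosure ℤ ℂ, (c : ℂ) = qCoeff g (l : ℕ) ∧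
        c - ((a l : ℤ) : integralClosure ℤ ℂ) ∈ 𝔪') ∧
      qCoeff g (q : ℕ) ^ 2 = 1 := by
  classical
  -- the abstract set-up
  let ι : Type := {l : Nat.Primes // l ∈ G ∨ l = q}
  let op : ι → Module.End ℂ (Additive (Gamma0 M) →+ ℂ) := fun i => cohLin M i.1
  let L : Submodule ℤ (Additive (Gamma0 M) →+ ℂ) := K.map (latC M).toIntLinearMap
  have hmemL : ∀ y ∈ K, latC M y ∈ L := fun y hy => ⟨y, hy, rfl⟩
  have hLfg : L.FG := (IsNoetherian.noetherian K).map _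
  have hLstab : ∀ i, ∀ v ∈ L, op i v ∈ L := by
    rintro i _ ⟨y, hy, rfl⟩
    refine ⟨latT M i.1 y, hKstab i.1 i.2 y hy, ?_⟩
    exact latC_latT M i.1 y
  have hcomm : ∀ i j, ∀ v ∈ L, op i (op j v) = op j (op i v) := by
    rintro i j _ ⟨y, hy, rfl⟩
    show cohGen M ℂ i.1 (cohGen M ℂ j.1 (latC M y)) = cohGen M ℂ j.1 (cohGen M ℂ i.1 (latC M y))
    rw [← latC_latT, ← latC_latT, ← latC_latT, ← latC_latT]
    have := congrArg (fun t : Module.End ℤ (Lam M) => t y) (latT_commute M i.1 j.1).eq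
    exact congrArg (latC M) this
  have hxp' : ∀ v ∈ L, latC M x ≠ (p : ℤ) • v := by
    rintro _ ⟨y, hy, rfl⟩ h
    refine hxp y hy (latC_injective M ?_)
    rw [h, map_zsmul]
    rfl
  have hx' : ∀ i ∈ {i : ι | i.1 ∈ G}, ∃ v ∈ L,
      op i (latC M x) - (fun i : ι => a i.1) i • latC M x = (p : ℤ) • v := by
    intro i hi
    obtain ⟨y, hy, hxy⟩ := hx i.1 hi
    refine ⟨latC M y, hmemL y hy, ?_⟩
    show cohGen M ℂ i.1 (latC M x) - a i.1 • latC M x = (p : ℤ) • latC M y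
    rw [← latC_latT, ← map_zsmul, ← map_zsmul, ← map_sub, hxy]
  obtain ⟨v, θ, 𝔪', hvW, hv0, h𝔪', hp𝔪, hθ, hG⟩ :=
    exists_eigen_of_lattice op L hLfg hLstab hcomm p {i : ι | i.1 ∈ G} (fun i => a i.1)
      (latC M x) (hmemL x hxK) hxp' hx'
  -- `θ_q ^ 2 = 1`
  let iq : ι := ⟨q, Or.inr rfl⟩
  have hθq : ((θ iq : integralClosure ℤ ℂ) : ℂ) ^ 2 = 1 := by
    have hEq : Set.EqOn ((op iq).comp (op iq))
        (LinearMap.id : (Additive (Gamma0 M) →+ ℂ) →ₗ[ℂ] (Additive (Gamma0 M) →+ ℂ))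
        (L : Set (Additive (Gamma0 M) →+ ℂ)) := by
      rintro _ ⟨y, hy, rfl⟩
      show cohGen M ℂ q (cohGen M ℂ q (latC M y)) = latC M y
      rw [← latC_latT, ← latC_latT, hKq y hy]
    have h1 : op iq (op iq v) = v := LinearMap.eqOn_span hEq hvW
    rw [hθ iq, map_smul, hθ iq, smul_smul] at h1
    have h2 : (((θ iq : integralClosure ℤ ℂ) : ℂ) * ((θ iq : integralClosure ℤ ℂ) : ℂ) - 1) • v
        = 0 := by
      rw [sub_smul, h1, one_smul, sub_self]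
    rcases smul_eq_zero.mp h2 with h | h
    · rw [pow_two]
      exact sub_eq_zero.mp h
    · exact absurd h hv0
  -- `v` is parabolic, hence a period pair
  have hvpar : v ∈ parabolicHoms ℂ (Gamma0 M) ℂ := by
    have hle : Submodule.span ℂ (L : Set (Additive (Gamma0 M) →+ ℂ))
        ≤ parabolicHoms ℂ (Gamma0 M) ℂ := by
      refine Submodule.span_le.mpr ?_
      rintro _ ⟨y, -, rfl⟩
      exact (mem_parabolicHoms_iff (R := ℂ)).mpr (latC_isParabolicHom M y)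
    exact hle hvW
  rw [← (Fermat.Agent.S21.result M).2] at hvpar
  obtain ⟨⟨f₁, f₂⟩, hf⟩ := hvpar
  have hinj := (Fermat.Agent.S21.result M).1
  have heig : ∀ i : ι, formOp M i.1 f₁ = ((θ i : integralClosure ℤ ℂ) : ℂ) • f₁ ∧
      formOp M i.1 f₂ = ((θ i : integralClosure ℤ ℂ) : ℂ) • f₂ := by
    intro i
    have h1 : periodHomPair M (formOp M i.1 f₁, formOp M i.1 f₂)
        = periodHomPair M (((θ i : integralClosure ℤ ℂ) : ℂ) • (f₁, f₂)) := by
      rw [periodHomPair_formOp, hf, map_smul, hf]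
      exact hθ i
    have h2 := hinj h1
    rw [Prod.smul_mk, Prod.mk.injEq] at h2
    exact h2
  have hne : f₁ ≠ 0 ∨ f₂ ≠ 0 := by
    by_contra hcon
    push Not at hcon
    apply hv0
    rw [← hf, hcon.1, hcon.2]
    exact map_zero _
  obtain ⟨f₀, hf₀, hf₀eig⟩ : ∃ f₀ : CuspForm (Gamma0 M) 2, f₀ ≠ 0 ∧
      ∀ i : ι, formOp M i.1 f₀ = ((θ i : integralClosure ℤ ℂ) : ℂ) • f₀ := by
    rcases hne with h | h
    · exact ⟨f₁, h, fun i => (heig i).1⟩
    · exact ⟨f₂, h, fun i => (heig i).2⟩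
  -- the joint eigenspace and a common eigenvector of the full Hecke algebra in it
  have hfd : FiniteDimensional ℂ (CuspForm (Gamma0 M) 2) :=
    Fermat.Agent.S23.finiteDimensional_cuspForm M 2
  let E : Submodule ℂ (CuspForm (Gamma0 M) 2) :=
    { carrier := {f | ∀ i : ι, formOp M i.1 f = ((θ i : integralClosure ℤ ℂ) : ℂ) • f}
      add_mem' := by
        intro f g hf hg i
        rw [map_add, hf i, hg i, smul_add]
      zero_mem' := by
        intro i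
        rw [map_zero, smul_zero]
      smul_mem' := by
        intro c f hf i
        rw [map_smul, hf i, smul_comm] }
  have hEne : E ≠ ⊥ := by
    intro h
    have : f₀ ∈ E := hf₀eig
    rw [h, Submodule.mem_bot] at this
    exact hf₀ this
  have hEstab : ∀ l : Nat.Primes, ∀ f ∈ E, formOp M l f ∈ E := by
    intro l f hf i
    have hc := congrArg (fun t : Module.End ℂ (CuspForm (Gamma0 M) 2) => t f)
      (formOp_commute M i.1 l).eq
    have hc' : formOp M i.1 (formOp M l f) = formOp M l (formOp M i.1 f) := hc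
    rw [hc', hf i, map_smul]
  obtain ⟨g₀, c, hg₀E, hg₀, hc⟩ :=
    exists_common_eigenvector_mem (fun l : Nat.Primes => formOp M l) (formOp_commute M) E hEne
      hEstab
  have hcθ : ∀ i : ι, c i.1 = ((θ i : integralClosure ℤ ℂ) : ℂ) := by
    intro i
    have h1 : c i.1 • g₀ = ((θ i : integralClosure ℤ ℂ) : ℂ) • g₀ := by
      rw [← hc i.1, hg₀E i]
    have h2 : (c i.1 - ((θ i : integralClosure ℤ ℂ) : ℂ)) • g₀ = 0 := by
      rw [sub_smul, h1, sub_self]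
    rcases smul_eq_zero.mp h2 with h | h
    · exact sub_eq_zero.mp h
    · exact absurd h hg₀
  -- normalise
  let ev : ℕ → ℂ := fun n => if h : n.Prime then c ⟨n, h⟩ else 0
  have hev : ∀ (ℓ : ℕ) (hℓ : ℓ.Prime), ev ℓ = c ⟨ℓ, hℓ⟩ := fun ℓ hℓ => dif_pos hℓ
  obtain ⟨g, hgN, hgc⟩ :=
    Fermat.Agent.S49_helper65.exists_normalizedEigenform_of_eigenvector g₀ hg₀ ev
      (fun ℓ hℓ hℓM => by
        have h := hc ⟨ℓ, hℓ⟩
        rw [formOp_of_not_dvd M hℓ hℓM] at h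
        rw [h, hev ℓ hℓ])
      (fun ℓ hℓ hℓM => by
        have h := hc ⟨ℓ, hℓ⟩
        rw [formOp_of_dvd M hℓ hℓM] at h
        rw [h, hev ℓ hℓ])
  refine ⟨g, 𝔪', hgN, h𝔪', hp𝔪, ?_, ?_⟩
  · intro l hl
    refine ⟨θ ⟨l, Or.inl hl⟩, ?_, hG ⟨l, Or.inl hl⟩ hl⟩
    rw [hgc l l.2, hev l l.2]
    exact (hcθ ⟨l, Or.inl hl⟩).symm
  · rw [hgc q q.2, hev q q.2]
    have := hcθ iq
    rw [show c iq.1 = c q from rfl] at this
    rw [show (⟨(q : ℕ), q.2⟩ : Nat.Primes) = q from rfl, this]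
    exact hθq

/-- **Endgame, saturated form**: `K` is saturated at `p` in `Λ` (e.g. a kernel of a map into a
torsion-free module), `x ∈ K` is not divisible by `p` in `Λ`, and `x` is an eigenvector modulo
`p Λ`. -/
theorem exists_eigenform_of_saturated
    (p : ℕ) (q : Nat.Primes) (G : Set Nat.Primes) (a : Nat.Primes → ℤ)
    (K : Submodule ℤ (Lam M))
    (hKstab : ∀ l : Nat.Primes, (l ∈ G ∨ l = q) → ∀ y ∈ K, latT M l y ∈ K)
    (hKsat : ∀ y : Lam M, (p : ℤ) • y ∈ K → y ∈ K)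
    (hKq : ∀ y ∈ K, latT M q (latT M q y) = y)
    (x : Lam M) (hxK : x ∈ K) (hxp : ∀ y : Lam M, x ≠ (p : ℤ) • y)
    (hx : ∀ l ∈ G, ∃ y : Lam M, latT M l x - a l • x = (p : ℤ) • y) :
    ∃ (g : CuspForm (Gamma0 M) 2) (𝔪' : Ideal (integralClosure ℤ ℂ)),
      g.IsNormalizedEigenform ∧ 𝔪'.IsMaximal ∧ (p : integralClosure ℤ ℂ) ∈ 𝔪' ∧
      (∀ l ∈ G, ∃ c : integralClosure ℤ ℂ, (c : ℂ) = qCoeff g (l : ℕ) ∧
        c - ((a l : ℤ) : integralClosure ℤ ℂ) ∈ 𝔪') ∧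
      qCoeff g (q : ℕ) ^ 2 = 1 := by
  refine exists_eigenform_of_lattice_class M p q G a K hKstab hKq x hxK (fun y _ => hxp y) ?_
  intro l hl
  obtain ⟨y, hy⟩ := hx l hl
  refine ⟨y, hKsat y ?_, hy⟩
  rw [← hy]
  exact K.sub_mem (hKstab l (Or.inl hl) x hxK) (K.smul_mem _ hxK)

end Fermat.Agent.GM.End

namespace Fermat.Agent.GM.End

open Fermat.Agent.S16_helper49 Fermat.Agent.GJ.J2.Lat

/-- **Endgame in the shape of the frozen S41**: level `N q'`, good primes of the integral model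
`W`, eigenvalues `a_ℓ(W)`; the conclusion is verbatim the conclusion of S41. -/
theorem s41_conclusion_of_lattice_class (W : WeierstrassCurve ℤ) {p N q' : ℕ} [NeZero (N * q')]
    (hq' : q'.Prime)
    (K : Submodule ℤ (Lam (N * q')))
    (hKstab : ∀ l : Nat.Primes,
      ((W.IsGoodPrimeFor l ∧ ¬ (l : ℕ) ∣ N * q' ∧ (l : ℕ) ≠ p) ∨ l = ⟨q', hq'⟩) →
      ∀ y ∈ K, latT (N * q') l y ∈ K)
    (hKsat : ∀ y : Lam (N * q'), (p : ℤ) • y ∈ K → y ∈ K)
    (hKq : ∀ y ∈ K, latT (N * q') ⟨q', hq'⟩ (latT (N * q') ⟨q', hq'⟩ y) = y)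
    (x : Lam (N * q')) (hxK : x ∈ K) (hxp : ∀ y : Lam (N * q'), x ≠ (p : ℤ) • y)
    (hx : ∀ l : Nat.Primes, W.IsGoodPrimeFor l → ¬ (l : ℕ) ∣ N * q' → (l : ℕ) ≠ p →
      ∃ y : Lam (N * q'), latT (N * q') l x - W.apOfModel l • x = (p : ℤ) • y) :
    ∃ (g : CuspForm (CongruenceSubgroup.Gamma0 (N * q')) 2) (𝔪' : Ideal (integralClosure ℤ ℂ)),
      g.IsNormalizedEigenform ∧ 𝔪'.IsMaximal ∧ (p : integralClosure ℤ ℂ) ∈ 𝔪' ∧
      (∀ ℓ : ℕ, ℓ.Prime → W.IsGoodPrimeFor ℓ → ¬ ℓ ∣ N * q' → ℓ ≠ p →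
        ∃ a : integralClosure ℤ ℂ, (a : ℂ) = ModularFormClass.qCoeff g ℓ ∧
          a - ((W.apOfModel ℓ : ℤ) : integralClosure ℤ ℂ) ∈ 𝔪') ∧
      g.IsNewAt q' := by
  obtain ⟨g, 𝔪', hg, h𝔪', hp, hG, hq⟩ :=
    exists_eigenform_of_saturated (N * q') p ⟨q', hq'⟩
      {l : Nat.Primes | W.IsGoodPrimeFor l ∧ ¬ (l : ℕ) ∣ N * q' ∧ (l : ℕ) ≠ p}
      (fun l => W.apOfModel l) K hKstab hKsat hKq x hxK hxp
      (fun l hl => hx l hl.1 hl.2.1 hl.2.2)
  refine ⟨g, 𝔪', hg, h𝔪', hp, ?_, hq⟩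
  intro ℓ hℓ hgood hℓN hℓp
  exact hG ⟨ℓ, hℓ⟩ ⟨hgood, hℓN, hℓp⟩

end Fermat.Agent.GM.End
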