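/-
GATE-M / S41-E-SKELETON (helper35): level raising from its leaves.

`levelRaise_of_leaves`: the conclusion of the frozen statement `S41` (at level `N * q`) from
* (B) two additive maps `α : Λ_N × Λ_N → Λ_{Nq}`, `β : Λ_{Nq} → Λ_N × Λ_N` with
  `β ∘ α = [[q+1, T_q], [T_q, q+1]]`, equivariant for the good Hecke operators, `U_q² = 1` on `ker β`;
* (C) Ihara's lemma mod `p` for ONE good prime `l0`;
* (D) mod-`p` left non-degenerate pairings at levels `N`, `Nq`, `β` adjoint to `α`, `T_{l0}`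
  self-adjoint at level `N`;
* (A) `a_{l0}(f) ≢ l0 + 1` mod `𝔪`;
* the hypotheses of `S41` on `f` (`hcong`, `hLR`).
Everything is phrased on `Lam M = parabolicHoms ℤ Γ₀(M) ℤ` and `latT M l` of GJ/J2/Lattice; no
dependency on the files proving the leaves.  Chains GM/Alg (helper98) with GM/End.
-/
import Fermat.Agent.GM.End.FormToLat
import Fermat.Agent.GM.End.LyingOver
import Fermat.Agent.GM.Alg.Chain

set_option autoImplicit false

open scoped MatrixGroups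
open CongruenceSubgroup ModularCurve ModularCurve.Period CuspForm ModularFormClass

namespace Fermat.Agent.GM.End

open Fermat.Agent.GJ.J2.Lat Fermat.Agent.GM.Alg

/-! ### Linearity over a polynomial ring from commutation with the variables -/

section PolyLinear

variable {σ : Type*} {M₁ M₂ : Type*} [AddCommGroup M₁] [AddCommGroup M₂]
  [Module (MvPolynomial σ ℤ) M₁] [Module (MvPolynomial σ ℤ) M₂]

theorem C_smul_eq_zsmul {K : Type*} [AddCommGroup K] [Module (MvPolynomial σ ℤ) K] (a : ℤ)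
    (w : K) : (MvPolynomial.C a : MvPolynomial σ ℤ) • w = a • w := by
  have : (MvPolynomial.C a : MvPolynomial σ ℤ) = (a : MvPolynomial σ ℤ) := by simp
  rw [this, Int.cast_smul_eq_zsmul]

/-- An additive map commuting with the variables is linear over the polynomial ring. -/
theorem map_smul_of_comm_X (f : M₁ →+ M₂)
    (hX : ∀ (i : σ) (v : M₁), f ((MvPolynomial.X i : MvPolynomial σ ℤ) • v) =
      (MvPolynomial.X i : MvPolynomial σ ℤ) • f v)
    (s : MvPolynomial σ ℤ) (v : M₁) : f (s • v) = s • f v := by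
  induction s using MvPolynomial.induction_on generalizing v with
  | C a =>
    rw [C_smul_eq_zsmul, C_smul_eq_zsmul, map_zsmul]
  | add P Q hP hQ =>
    rw [add_smul, add_smul, map_add, hP, hQ]
  | mul_X P i hP =>
    rw [mul_smul, mul_smul, hP, hX]

end PolyLinear

/-! ### The skeleton -/

section Skeleton

variable {N q p : ℕ}

/-- The ring of good Hecke operators for the level `N * q`. -/
abbrev GoodHecke (N q : ℕ) : Type := MvPolynomial {l : Nat.Primes // ¬ (l : ℕ) ∣ N * q} ℤ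

/-- `GoodHecke N q → HeckeAlg`. -/
noncomputable def goodIncl (N q : ℕ) : GoodHecke N q →+* HeckeAlg :=
  (MvPolynomial.rename (Subtype.val : {l : Nat.Primes // ¬ (l : ℕ) ∣ N * q} → Nat.Primes) :
    GoodHecke N q →ₐ[ℤ] HeckeAlg).toRingHom

theorem goodIncl_X (l : {l : Nat.Primes // ¬ (l : ℕ) ∣ N * q}) :
    goodIncl N q (MvPolynomial.X l) = heckeGen l.1 :=
  MvPolynomial.rename_X _ _

theorem goodIncl_C (a : ℤ) : goodIncl N q (MvPolynomial.C a) = MvPolynomial.C a :=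
  MvPolynomial.rename_C _ _

variable [NeZero N] [NeZero (N * q)]

theorem actL_natCast_add_one (M : ℕ) [NeZero M] (n : ℕ) (x : Lam M) :
    actL M ((n : HeckeAlg) + 1) x = ((n : ℤ) + 1) • x := by
  have : ((n : HeckeAlg) + 1) = MvPolynomial.C ((n : ℤ) + 1) := by simp
  rw [this, actL_C]

omit [NeZero N] in
/-- The endgame, separated from the algebra: a prime ideal `𝔪A` of the free Hecke ring such that
every good Hecke operator killing `ker β` lies in `𝔪A`, containing `p` and the `X_ℓ − a ℓ`. -/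
theorem levelRaise_endgame (hq : q.Prime) (β : Lam (N * q) →+ Lam N × Lam N)
    (hUq : ∀ z : Lam (N * q), β z = 0 → latT (N * q) ⟨q, hq⟩ (latT (N * q) ⟨q, hq⟩ z) = z)
    (𝔪A : Ideal HeckeAlg) [h𝔪A : 𝔪A.IsPrime] (a : ℕ → ℤ) (good : ℕ → Prop)
    (hALG : ∀ s : GoodHecke N q,
      (∀ z : Lam (N * q), β z = 0 → actL (N * q) (goodIncl N q s) z = 0) → goodIncl N q s ∈ 𝔪A)
    (hpA : (MvPolynomial.C (p : ℤ) : HeckeAlg) ∈ 𝔪A)
    (hcongA : ∀ (ℓ : ℕ) (hℓ : ℓ.Prime), good ℓ → ¬ ℓ ∣ N * q → ℓ ≠ p →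
      heckeGen ⟨ℓ, hℓ⟩ - MvPolynomial.C (a ℓ) ∈ 𝔪A) :
    ∃ (g : CuspForm (Gamma0 (N * q)) 2) (𝔪' : Ideal (integralClosure ℤ ℂ)),
      g.IsNormalizedEigenform ∧ 𝔪'.IsMaximal ∧ (p : integralClosure ℤ ℂ) ∈ 𝔪' ∧
      (∀ ℓ : ℕ, ℓ.Prime → good ℓ → ¬ ℓ ∣ N * q → ℓ ≠ p →
        ∃ c : integralClosure ℤ ℂ, (c : ℂ) = qCoeff g ℓ ∧
          c - ((a ℓ : ℤ) : integralClosure ℤ ℂ) ∈ 𝔪') ∧
      g.IsNewAt q := by
  have h𝔭prime : (𝔪A.comap (goodIncl N q)).IsPrime := Ideal.comap_isPrime _ 𝔪A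
  have hann : (annSet (N * q) {z : Lam (N * q) | β z = 0}).comap (goodIncl N q) ≤
      𝔪A.comap (goodIncl N q) := by
    intro s hs
    rw [Ideal.mem_comap] at hs ⊢
    exact hALG s (fun z hz => hs z hz)
  have hp' : ∃ s ∈ 𝔪A.comap (goodIncl N q), goodIncl N q s = MvPolynomial.C (p : ℤ) := by
    refine ⟨MvPolynomial.C (p : ℤ), ?_, goodIncl_C _⟩
    rw [Ideal.mem_comap, goodIncl_C]
    exact hpA
  have hgood' : ∀ (ℓ : ℕ) (hℓ : ℓ.Prime), good ℓ → ¬ ℓ ∣ N * q → ℓ ≠ p →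
      ∃ s ∈ 𝔪A.comap (goodIncl N q),
        goodIncl N q s = heckeGen ⟨ℓ, hℓ⟩ - MvPolynomial.C (a ℓ) := by
    intro ℓ hℓ hgood hℓM hℓp
    obtain ⟨s, e⟩ : ∃ s : GoodHecke N q,
        goodIncl N q s = heckeGen ⟨ℓ, hℓ⟩ - MvPolynomial.C (a ℓ) := by
      refine ⟨MvPolynomial.X (⟨⟨ℓ, hℓ⟩, hℓM⟩ : {l : Nat.Primes // ¬ (l : ℕ) ∣ N * q}) -
        MvPolynomial.C (a ℓ), ?_⟩
      rw [map_sub, goodIncl_X, goodIncl_C]
    refine ⟨s, ?_, e⟩
    rw [Ideal.mem_comap, e]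
    exact hcongA ℓ hℓ hgood hℓM hℓp
  exact exists_newAt_congruent_eigenform_of_ann (N * q) (goodIncl N q)
    {z : Lam (N * q) | β z = 0} (𝔪A.comap (goodIncl N q)) hann hq (fun z hz => hUq z hz) hp'
    a good hgood'

/-- **Level raising from its leaves.** -/
theorem levelRaise_of_leaves (hq : q.Prime) (hp : p.Prime)
    (α : Lam N × Lam N →+ Lam (N * q)) (β : Lam (N * q) →+ Lam N × Lam N)
    -- (B2)
    (hβα : ∀ x y : Lam N, β (α (x, y)) =
      (((q : ℤ) + 1) • x + latT N ⟨q, hq⟩ y, latT N ⟨q, hq⟩ x + ((q : ℤ) + 1) • y))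
    -- (B4)
    (hαeq : ∀ l : Nat.Primes, ¬ (l : ℕ) ∣ N * q → ∀ x y : Lam N,
      α (latT N l x, latT N l y) = latT (N * q) l (α (x, y)))
    (hβeq : ∀ l : Nat.Primes, ¬ (l : ℕ) ∣ N * q → ∀ z : Lam (N * q),
      β (latT (N * q) l z) = (latT N l (β z).1, latT N l (β z).2))
    -- (B5)
    (hUq : ∀ z : Lam (N * q), β z = 0 → latT (N * q) ⟨q, hq⟩ (latT (N * q) ⟨q, hq⟩ z) = z)
    -- (C) Ihara mod `p` for one good prime
    (l0 : Nat.Primes) (hl0 : ¬ (l0 : ℕ) ∣ N * q)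
    (hIhara : ∀ x y : Lam N, (∃ w : Lam (N * q), α (x, y) = (p : ℤ) • w) →
      ∃ z1 z2 : Lam N, latT N l0 x - (((l0 : ℕ) : ℤ) + 1) • x = (p : ℤ) • z1 ∧
        latT N l0 y - (((l0 : ℕ) : ℤ) + 1) • y = (p : ℤ) • z2)
    -- (D) pairings mod `p`
    (B : Lam N →+ Lam N →+ ZMod p) (B2 : Lam (N * q) →+ Lam (N * q) →+ ZMod p)
    (hB : ∀ x : Lam N, (∀ y, B x y = 0) → ∃ z, x = (p : ℤ) • z)
    (hB2 : ∀ w : Lam (N * q), (∀ z, B2 w z = 0) → ∃ z, w = (p : ℤ) • z)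
    (hadj : ∀ (x y : Lam N) (z : Lam (N * q)), B2 (α (x, y)) z = B x (β z).1 + B y (β z).2)
    (hTadj : ∀ x y : Lam N, B (latT N l0 x) y = B x (latT N l0 y))
    -- the eigenform of level `N`
    {f : CuspForm (Gamma0 N) 2} (hf : f.IsNormalizedEigenform)
    (𝔪 : Ideal (integralClosure ℤ ℂ)) (hmax : 𝔪.IsMaximal)
    (hpm : (p : integralClosure ℤ ℂ) ∈ 𝔪) (a : ℕ → ℤ) (good : ℕ → Prop)
    (hcong : ∀ ℓ : ℕ, ℓ.Prime → good ℓ → ¬ ℓ ∣ N → ℓ ≠ p →
      ∃ c : integralClosure ℤ ℂ, (c : ℂ) = qCoeff f ℓ ∧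
        c - ((a ℓ : ℤ) : integralClosure ℤ ℂ) ∈ 𝔪)
    (hLR : ∃ c : integralClosure ℤ ℂ, (c : ℂ) = qCoeff f q ∧
      c ^ 2 - ((q : integralClosure ℤ ℂ) + 1) ^ 2 ∈ 𝔪)
    -- (A) non-Eisenstein at `l0`
    (hA : ∃ c : integralClosure ℤ ℂ, (c : ℂ) = qCoeff f l0 ∧
      c - (((l0 : ℕ) : integralClosure ℤ ℂ) + 1) ∉ 𝔪) :
    ∃ (g : CuspForm (Gamma0 (N * q)) 2) (𝔪' : Ideal (integralClosure ℤ ℂ)),
      g.IsNormalizedEigenform ∧ 𝔪'.IsMaximal ∧ (p : integralClosure ℤ ℂ) ∈ 𝔪' ∧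
      (∀ ℓ : ℕ, ℓ.Prime → good ℓ → ¬ ℓ ∣ N * q → ℓ ≠ p →
        ∃ c : integralClosure ℤ ℂ, (c : ℂ) = qCoeff g ℓ ∧
          c - ((a ℓ : ℤ) : integralClosure ℤ ℂ) ∈ 𝔪') ∧
      g.IsNewAt q := by
  classical
  have hpF : Fact p.Prime := ⟨hp⟩
  -- rings and module structures
  let ψ : GoodHecke N q →+* HeckeAlg := goodIncl N q
  let iA1 : Module HeckeAlg (Lam N) := lamModule N
  let iT1 : Module (GoodHecke N q) (Lam N) := Module.compHom (Lam N) ψ
  let iA2 : Module HeckeAlg (Lam (N * q)) := lamModule (N * q)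
  let iT2 : Module (GoodHecke N q) (Lam (N * q)) := Module.compHom (Lam (N * q)) ψ
  have hsm1 : ∀ (s : GoodHecke N q) (x : Lam N), s • x = actL N (ψ s) x := fun _ _ => rfl
  have hsm2 : ∀ (s : GoodHecke N q) (z : Lam (N * q)), s • z = actL (N * q) (ψ s) z :=
    fun _ _ => rfl
  have hsmA : ∀ (P : HeckeAlg) (x : Lam N), P • x = actL N P x := fun _ _ => rfl
  have hX1 : ∀ (l : {l : Nat.Primes // ¬ (l : ℕ) ∣ N * q}) (x : Lam N),
      (MvPolynomial.X l : GoodHecke N q) • x = latT N l.1 x := by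
    intro l x
    rw [hsm1]
    show actL N (goodIncl N q (MvPolynomial.X l)) x = _
    rw [goodIncl_X, actL_heckeGen]
  have hX2 : ∀ (l : {l : Nat.Primes // ¬ (l : ℕ) ∣ N * q}) (z : Lam (N * q)),
      (MvPolynomial.X l : GoodHecke N q) • z = latT (N * q) l.1 z := by
    intro l z
    rw [hsm2]
    show actL (N * q) (goodIncl N q (MvPolynomial.X l)) z = _
    rw [goodIncl_X, actL_heckeGen]
  have hC1 : ∀ (n : ℤ) (x : Lam N), (MvPolynomial.C n : GoodHecke N q) • x = n • x := by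
    intro n x
    rw [hsm1]
    show actL N (goodIncl N q (MvPolynomial.C n)) x = _
    rw [goodIncl_C, actL_C]
  -- linear versions of `α`, `β`
  let αT : Lam N × Lam N →ₗ[GoodHecke N q] Lam (N * q) :=
    { toFun := α
      map_add' := map_add α
      map_smul' := by
        intro s v
        refine map_smul_of_comm_X α ?_ s v
        rintro l ⟨x, y⟩
        rw [Prod.smul_mk, hX1, hX1, hX2]
        exact hαeq l.1 l.2 x y }
  let βT : Lam (N * q) →ₗ[GoodHecke N q] Lam N × Lam N :=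
    { toFun := β
      map_add' := map_add β
      map_smul' := by
        intro s v
        refine map_smul_of_comm_X β ?_ s v
        intro l z
        rw [hX2, hβeq l.1 l.2 z]
        refine Prod.ext ?_ ?_
        · rw [Prod.smul_fst, hX1]
        · rw [Prod.smul_snd, hX1] }
  have hαT : ∀ v, αT v = α v := fun _ => rfl
  have hβT : ∀ z, βT z = β z := fun _ => rfl
  -- the data of ALG
  set lq : Nat.Primes := ⟨q, hq⟩ with hlq
  let t : HeckeAlg := heckeGen lq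
  have hβα' : ∀ x y : Lam N, βT (αT (x, y)) =
      (((q : HeckeAlg) + 1) • x + t • y, t • x + ((q : HeckeAlg) + 1) • y) := by
    intro x y
    rw [hαT, hβT, hβα, hsmA, hsmA, hsmA, hsmA, actL_natCast_add_one, actL_natCast_add_one,
      actL_heckeGen, actL_heckeGen]
  set 𝔪A : Ideal HeckeAlg := 𝔪.comap (thetaOf hf) with h𝔪A
  obtain ⟨hmaxA, hpA, hcongA, hdetA, -, -⟩ :=
    supply_of_eigenform (M := N) (p := p) (q := q) hf 𝔪 hmax hpm a good hcong hq hLR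
  have hpA' : ((p : ℕ) : HeckeAlg) ∈ 𝔪A := by
    have : ((p : ℕ) : HeckeAlg) = MvPolynomial.C (p : ℤ) := by simp
    rw [this]
    exact hpA
  have hdetA' : ((q : HeckeAlg) + 1) ^ 2 - t ^ 2 ∈ 𝔪A := by
    have h1 : ((q : HeckeAlg) + 1) = MvPolynomial.C ((q : ℤ) + 1) := by simp
    rw [h1, ← neg_sub, neg_mem_iff]
    exact hdetA
  have hsupp : ∃ x : Lam N, x ∉ 𝔪A • (⊤ : Submodule HeckeAlg (Lam N)) :=
    exists_notMem_smul_top hf 𝔪 hmax.ne_top
  -- the non-Eisenstein operator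
  let l0' : {l : Nat.Primes // ¬ (l : ℕ) ∣ N * q} := ⟨l0, hl0⟩
  let η : GoodHecke N q := MvPolynomial.X l0' - MvPolynomial.C (((l0 : ℕ) : ℤ) + 1)
  have hηψ : ψ η = heckeGen l0 - MvPolynomial.C (((l0 : ℕ) : ℤ) + 1) := by
    show goodIncl N q (MvPolynomial.X l0' - MvPolynomial.C (((l0 : ℕ) : ℤ) + 1)) = _
    rw [map_sub, goodIncl_X, goodIncl_C]
  have hη : ψ η ∉ 𝔪A := by
    obtain ⟨c, hc, hcm⟩ := hA
    rw [hηψ]
    refine heckeGen_sub_C_notMem_comap hf 𝔪 l0 _ hc ?_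
    push_cast
    exact hcm
  have hηsm : ∀ x : Lam N, η • x = latT N l0 x - (((l0 : ℕ) : ℤ) + 1) • x := by
    intro x
    show (MvPolynomial.X l0' - MvPolynomial.C (((l0 : ℕ) : ℤ) + 1) : GoodHecke N q) • x = _
    rw [sub_smul, hX1, hC1]
  have hIhara' : ∀ x : Lam N × Lam N, (∃ y, αT x = (p : ℤ) • y) →
      ∃ z, η • x = (p : ℤ) • z := by
    rintro ⟨x, y⟩ ⟨w, hw⟩
    obtain ⟨z1, z2, h1, h2⟩ := hIhara x y ⟨w, hw⟩
    refine ⟨(z1, z2), Prod.ext ?_ ?_⟩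
    · rw [Prod.smul_fst, Prod.smul_fst, hηsm]; exact h1
    · rw [Prod.smul_snd, Prod.smul_snd, hηsm]; exact h2
  -- the dual Ihara statement from the pairings
  have hadj' : ∀ (x : Lam N × Lam N) (z : Lam (N * q)),
      B2 (αT x) z = prodPairing B x (βT z) := by
    rintro ⟨x, y⟩ z
    rw [hαT, hβT, hadj, prodPairing_apply]
  have hηadj : ∀ x y : Lam N, B (η • x) y = B x (η • y) := by
    intro x y
    rw [hηsm, hηsm, map_sub, map_sub, AddMonoidHom.sub_apply, map_zsmul, map_zsmul,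
      AddMonoidHom.zsmul_apply, hTadj]
  have hηadj' : ∀ x y : Lam N × Lam N, prodPairing B (η • x) y = prodPairing B x (η • y) := by
    intro x y
    simp only [prodPairing_apply, Prod.smul_fst, Prod.smul_snd, hηadj]
  have hDual : ∀ y : Lam N × Lam N, ∃ (z : Lam (N * q)) (w : Lam N × Lam N),
      η • y = βT z + (p : ℤ) • w :=
    dual_ihara_of_pairing p αT βT (prodPairing B) B2 (prodPairing_nondeg p B hB) hB2 hadj' η
      hηadj' hIhara'
  -- ALG
  have hALG : ∀ s : GoodHecke N q,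
      (∀ z : Lam (N * q), β z = 0 → actL (N * q) (goodIncl N q s) z = 0) →
        goodIncl N q s ∈ 𝔪A :=
    fun s hs =>
      ann_ker_le_of_levelRaise_hom ψ (fun _ _ => rfl) p q hp t αT βT hβα' 𝔪A hmaxA hpA' hdetA'
        hsupp η η hη hη hIhara' hDual s hs
  have h𝔪Aprime : 𝔪A.IsPrime := hmaxA.isPrime
  -- the endgame
  exact levelRaise_endgame hq β hUq 𝔪A a good (fun s hs => hALG s hs) hpA
    (fun ℓ hℓ hgood hℓM hℓp => hcongA ℓ hℓ hgood (fun h => hℓM (Dvd.dvd.mul_right h q)) hℓp)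

end Skeleton

end Fermat.Agent.GM.End
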