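/-
GATE-M / S41-E-PLUG (helper35): the skeleton `levelRaise_of_leaves` instantiated with the landed
leaves:
* (B)  helper91 `GM/B/Main`: `α = alphaP ℤ N q`, `β = betaP ℤ hqN`, `(B2) = betaP_alphaP`;
* (C)  helper98 `GM/Ihara/IharaAsm`: `ihara_mod_p_of_csp` under the hypothesis `CSPStmt`;
* (A)  helper81 `GM/NonEis/Main`: `exists_good_prime_eigen_notMem`.
Remaining hypotheses of `S41_of_remaining_leaves`: `CSPStmt`, (B4) equivariance, (B5) `U_q² = 1` on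
`ker β`, and the (D) package of mod-`p` pairings.
-/
import Fermat.Agent.GM.End.Skeleton
import Fermat.Agent.GM.B.Main
import Fermat.Agent.GM.Ihara.IharaAsm
import Fermat.Agent.GM.NonEis.Main

set_option autoImplicit false

open scoped MatrixGroups
open CongruenceSubgroup ModularCurve ModularCurve.Period CuspForm ModularFormClass

namespace Fermat.Agent.GM.End

open Fermat.Agent.GJ.J2.Lat Fermat.Agent.GM.B Fermat.Agent.GM.Ihara Fermat.Agent.S16_helper49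
open Fermat.Agent.GM.Amalgam

section Plug

/-- `latT` at a prime not dividing the level is the cohomological `T_l`. -/
theorem coe_latT_of_not_dvd {M : ℕ} [NeZero M] (l : Nat.Primes) [Fact (l : ℕ).Prime]
    (h : ¬ (l : ℕ) ∣ M) (x : Lam M) :
    ((latT M l x : Lam M) : Additive (Gamma0 M) →+ ℤ) =
      cohT h ℤ (x : Additive (Gamma0 M) →+ ℤ) := by
  rw [coe_latT, cohGen_of_not_dvd M ℤ l h]

variable {N q : ℕ} [hqF : Fact q.Prime] [NeZero N]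

theorem heckeP_eq_latT (hqN : ¬ q ∣ N) (x : Lam N) :
    heckeP ℤ hqN x = latT N ⟨q, hqF.out⟩ x := by
  apply Subtype.ext
  rw [heckeP_coe]
  exact (coe_latT_of_not_dvd (M := N) ⟨q, hqF.out⟩ hqN x).symm

/-- (B2) in the shape of the skeleton. -/
theorem betaP_alphaP_latT [NeZero (N * q)] (hqN : ¬ q ∣ N) (x y : Lam N) :
    betaP ℤ hqN (alphaP ℤ N q (x, y)) =
      (((q : ℤ) + 1) • x + latT N ⟨q, hqF.out⟩ y, latT N ⟨q, hqF.out⟩ x + ((q : ℤ) + 1) • y) := by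
  have h2 : ∀ x : Lam N, (q + 1) • x = ((q : ℤ) + 1) • x := by
    intro x
    rw [← natCast_zsmul]
    push_cast
    rfl
  rw [betaP_alphaP, heckeP_eq_latT, heckeP_eq_latT, h2, h2]

/-- (C) in the shape of the skeleton, from `CSPStmt`. -/
theorem ihara_latT_of_csp [NeZero (N * q)] (hqN : ¬ q ∣ N) {p : ℕ} (hp0 : p ≠ 0)
    (hcsp : CSPStmt N q (Multiplicative (ZMod p)))
    (l0 : Nat.Primes) (hl0 : ¬ (l0 : ℕ) ∣ N) (x y : Lam N)
    (hxy : ∃ w : Lam (N * q), alphaP ℤ N q (x, y) = (p : ℤ) • w) :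
    ∃ z1 z2 : Lam N, latT N l0 x - (((l0 : ℕ) : ℤ) + 1) • x = (p : ℤ) • z1 ∧
      latT N l0 y - (((l0 : ℕ) : ℤ) + 1) • y = (p : ℤ) • z2 := by
  have : Fact (l0 : ℕ).Prime := ⟨l0.2⟩
  obtain ⟨w, hw⟩ := hxy
  have hdiv : ∀ g : ↥(Gamma0 (N * q)), (p : ℤ) ∣
      (x : Additive (Gamma0 N) →+ ℤ) (Additive.ofMul (degenOne N q g)) +
        (y : Additive (Gamma0 N) →+ ℤ) (Additive.ofMul (degenDelta N q g)) := by
    intro g
    have h1 := congrArg (fun z : Lam (N * q) =>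
      (z : Additive (Gamma0 (N * q)) →+ ℤ) (Additive.ofMul g)) hw
    simp only [alphaP_apply] at h1
    rw [Submodule.coe_add, AddMonoidHom.add_apply, resP_coe, resDP_coe, res_apply, resD_apply,
      Submodule.coe_smul, AddMonoidHom.smul_apply] at h1
    exact ⟨_, h1⟩
  obtain ⟨h1, h2⟩ := ihara_mod_p_of_csp hqN p hcsp (ℓ := (l0 : ℕ)) hl0
    (x : Additive (Gamma0 N) →+ ℤ) (y : Additive (Gamma0 N) →+ ℤ) x.2 y.2 hdiv
  have key : ∀ u : Lam N,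
      (∀ g, (p : ℤ) ∣ (cohT hl0 ℤ (u : Additive (Gamma0 N) →+ ℤ) -
        ((l0 : ℕ) + 1) • (u : Additive (Gamma0 N) →+ ℤ)) g) →
      ∃ z : Lam N, latT N l0 u - (((l0 : ℕ) : ℤ) + 1) • u = (p : ℤ) • z := by
    intro u hu
    have hcoe : ((latT N l0 u - (((l0 : ℕ) : ℤ) + 1) • u : Lam N) : Additive (Gamma0 N) →+ ℤ) =
        cohT hl0 ℤ (u : Additive (Gamma0 N) →+ ℤ) -
          ((l0 : ℕ) + 1) • (u : Additive (Gamma0 N) →+ ℤ) := by
      rw [Submodule.coe_sub, Submodule.coe_smul, coe_latT_of_not_dvd l0 hl0 u, ← natCast_zsmul]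
      push_cast
      rfl
    obtain ⟨z, hz, hzeq⟩ := exists_parabolic_eq_smul hp0 _
      (hcoe ▸ (latT N l0 u - (((l0 : ℕ) : ℤ) + 1) • u : Lam N).2) hu
    refine ⟨⟨z, hz⟩, Subtype.ext ?_⟩
    rw [hcoe, hzeq]
    rfl
  obtain ⟨z1, hz1⟩ := key x h1
  obtain ⟨z2, hz2⟩ := key y h2
  exact ⟨z1, z2, hz1, hz2⟩

open WeierstrassCurve WeierstrassCurve.Affine WeierstrassCurve.Affine.Point in
/-- **`S41` from the remaining leaves**: `CSPStmt` (C2), the equivariance (B4), `U_q² = 1` on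
`ker β` (B5) and the package (D) of mod-`p` pairings.  The conclusion is the conclusion of the
frozen statement `S41` verbatim. -/
theorem S41_of_remaining_leaves [NeZero (N * q)]
    (E : WeierstrassCurve ℚ) [E.IsElliptic] {W : WeierstrassCurve ℤ}
    (hW : W.IsIntegralModelOf E) {p : ℕ} (hp : p.Prime) (hp2 : p ≠ 2) (hqN : ¬ q ∣ N)
    (hirr : GaloisRepIsIrreducible (K := AlgebraicClosure ℚ) ℚ E p)
    (f : CuspForm (CongruenceSubgroup.Gamma0 N) 2) (𝔪 : Ideal (integralClosure ℤ ℂ))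
    (hf : f.IsNormalizedEigenform) (hmax : 𝔪.IsMaximal) (hpm : (p : integralClosure ℤ ℂ) ∈ 𝔪)
    (hcong : ∀ ℓ : ℕ, ℓ.Prime → W.IsGoodPrimeFor ℓ → ¬ ℓ ∣ N → ℓ ≠ p →
      ∃ a : integralClosure ℤ ℂ, (a : ℂ) = ModularFormClass.qCoeff f ℓ ∧
        a - ((W.apOfModel ℓ : ℤ) : integralClosure ℤ ℂ) ∈ 𝔪)
    (hLR : ∃ a : integralClosure ℤ ℂ, (a : ℂ) = ModularFormClass.qCoeff f q ∧
      a ^ 2 - ((q : integralClosure ℤ ℂ) + 1) ^ 2 ∈ 𝔪)
    -- (C2)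
    (hcsp : CSPStmt N q (Multiplicative (ZMod p)))
    -- (B4)
    (hαeq : ∀ l : Nat.Primes, ¬ (l : ℕ) ∣ N * q → ∀ x y : Lam N,
      alphaP ℤ N q (latT N l x, latT N l y) = latT (N * q) l (alphaP ℤ N q (x, y)))
    (hβeq : ∀ l : Nat.Primes, ¬ (l : ℕ) ∣ N * q → ∀ z : Lam (N * q),
      betaP ℤ hqN (latT (N * q) l z) =
        (latT N l (betaP ℤ hqN z).1, latT N l (betaP ℤ hqN z).2))
    -- (B5)
    (hUq : ∀ z : Lam (N * q), betaP ℤ hqN z = 0 →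
      latT (N * q) ⟨q, hqF.out⟩ (latT (N * q) ⟨q, hqF.out⟩ z) = z)
    -- (D)
    (hD : ∃ (B : Lam N →+ Lam N →+ ZMod p) (B2 : Lam (N * q) →+ Lam (N * q) →+ ZMod p),
      (∀ x : Lam N, (∀ y, B x y = 0) → ∃ z, x = (p : ℤ) • z) ∧
      (∀ w : Lam (N * q), (∀ z, B2 w z = 0) → ∃ z, w = (p : ℤ) • z) ∧
      (∀ (x y : Lam N) (z : Lam (N * q)),
        B2 (alphaP ℤ N q (x, y)) z = B x (betaP ℤ hqN z).1 + B y (betaP ℤ hqN z).2) ∧
      (∀ l : Nat.Primes, ¬ (l : ℕ) ∣ N * q → ∀ x y : Lam N,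
        B (latT N l x) y = B x (latT N l y))) :
    ∃ (g : CuspForm (CongruenceSubgroup.Gamma0 (N * q)) 2) (𝔪' : Ideal (integralClosure ℤ ℂ)),
      g.IsNormalizedEigenform ∧ 𝔪'.IsMaximal ∧ (p : integralClosure ℤ ℂ) ∈ 𝔪' ∧
      (∀ ℓ : ℕ, ℓ.Prime → W.IsGoodPrimeFor ℓ → ¬ ℓ ∣ N * q → ℓ ≠ p →
        ∃ a : integralClosure ℤ ℂ, (a : ℂ) = ModularFormClass.qCoeff g ℓ ∧
          a - ((W.apOfModel ℓ : ℤ) : integralClosure ℤ ℂ) ∈ 𝔪') ∧
      g.IsNewAt q := by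
  classical
  have hN : 0 < N := Nat.pos_of_ne_zero (NeZero.ne N)
  obtain ⟨B, B2, hB, hB2, hadj, hTadj⟩ := hD
  -- (A): the non-Eisenstein prime
  obtain ⟨ℓ0, hℓ0, hℓ0q, -, -, hℓ0N, c, hc, -, hcA⟩ :=
    Fermat.Agent.GM.NonEis.exists_good_prime_eigen_notMem E hW hp hp2 hN hirr f 𝔪 hmax hpm hcong
      {q}
  have hℓ0q' : ℓ0 ≠ q := fun h => hℓ0q (by rw [h]; exact Finset.mem_singleton_self q)
  have hℓ0Nq : ¬ ℓ0 ∣ N * q := by
    intro h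
    rcases (Nat.Prime.dvd_mul hℓ0).1 h with h | h
    · exact hℓ0N h
    · exact hℓ0q' ((Nat.prime_dvd_prime_iff_eq hℓ0 hqF.out).1 h)
  let l0 : Nat.Primes := ⟨ℓ0, hℓ0⟩
  exact levelRaise_of_leaves (N := N) (q := q) (p := p) hqF.out hp (alphaP ℤ N q) (betaP ℤ hqN)
    (betaP_alphaP_latT hqN) hαeq hβeq hUq l0 hℓ0Nq
    (fun x y hxy => ihara_latT_of_csp hqN hp.ne_zero hcsp l0 hℓ0N x y hxy)
    B B2 hB hB2 hadj (hTadj l0 hℓ0Nq) hf 𝔪 hmax hpm (fun ℓ => W.apOfModel ℓ) W.IsGoodPrimeFor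
    hcong hLR ⟨c, hc, hcA⟩

end Plug

end Fermat.Agent.GM.End
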